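import Mathlib
import Fermat.Prelude.Def_FLTPrelim_Ramification

/-!
# E-BIG: interface (one `Prop` per piece)

Goal (consumers: S59 final wiring, K3/S56 `hTW`): for a semistable `W` and `p ∈ {3, 5}` with
`E[p]` irreducible, the restriction of `ρ̄_{E,p}` to EVERY subgroup of index two of `G_ℚ` is
absolutely irreducible.

Case (A) (`EC/Big/Crit.lean`, done): if the image of `ρ̄` contains a nontrivial unipotent element.
Case (B): no nontrivial unipotent element.  Then (semistability) `ρ̄` is unramified outside `p`
and its image `G` has order prime to `p`; arithmetic + group theory give that `G` is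
commutative, which contradicts irreducibility (complex conjugation has the eigenvalues `±1`).

Arithmetic pieces (all about subgroups of `G_ℚ` which are "unramified outside `p`"):
* `StmtQuad`   (QUAD): the only subgroup of index two is the stabiliser of `√p*`;
* `StmtCubic5` (CUBIC5): no normal subgroup of index three (`p = 5`);
* `StmtS3`     (S3-5): no normal subgroup of index six with non-commutative quotient (`p = 5`).
Group theory pieces:
* `StmtTwoGroup` (TWOGRP): a finite `2`-group with at most one subgroup of index two is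
  commutative;
* `StmtGrp3`, `StmtGrp5` (GRP3, GRP5): the subgroups of `GL₂(𝔽_p)` without elements of order `p`
  which satisfy the conclusions of the arithmetic pieces are commutative.
-/

set_option autoImplicit false

namespace Fermat.Agent.EC

/-- `ℚ̄` -/
local notation "Qbar" => AlgebraicClosure ℚ
/-- `G_ℚ` -/
local notation "GQ" => (AlgebraicClosure ℚ ≃ₐ[ℚ] AlgebraicClosure ℚ)

/-- `N ≤ G_ℚ` is normal, of finite level (it contains the pointwise stabiliser of a finite set of
algebraic numbers) and contains the inertia groups of ALL places over ALL primes `q ≠ p`: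
"the fixed field of `N` is a finite Galois extension of `ℚ` unramified outside `p` (and `∞`)". -/
structure EcbigUnr (p : ℕ) (N : Subgroup GQ) : Prop where
  normal : N.Normal
  level : ∃ S : Finset Qbar, ∀ σ : GQ, (∀ s ∈ S, σ s = s) → σ ∈ N
  unr : ∀ q : ℕ, q.Prime → q ≠ p → ∀ A : ValuationSubring Qbar, A.LiesOverPrime q →
    A.inertiaSubgroupIn ℚ ≤ N

/-- **QUAD**: `p` an odd prime, `d = ±p ≡ 1 mod 4`, `s² = d`.  The only subgroup of index two
of `G_ℚ` which is unramified outside `p` is the stabiliser of `s`
(the only quadratic field unramified outside `p` is `ℚ(√d)`). -/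
def StmtQuad : Prop :=
  ∀ (p : ℕ), p.Prime → p ≠ 2 → ∀ d : ℤ, d.natAbs = p → d % 4 = 1 →
    ∀ s : Qbar, s ^ 2 = (d : Qbar) →
    ∀ N : Subgroup GQ, EcbigUnr p N → ∀ H : Subgroup GQ, N ≤ H → H.index = 2 →
      ∀ σ : GQ, σ ∈ H ↔ σ s = s

/-- **CUBIC5**: there is no cyclic cubic field unramified outside `5`
(tame inertia in an abelian extension of `ℚ` has order dividing `5 - 1`, then Minkowski). -/
def StmtCubic5 : Prop :=
  ∀ N : Subgroup GQ, EcbigUnr 5 N → ∀ H : Subgroup GQ, N ≤ H → H.Normal → H.index ≠ 3

/-- **S3-5**: there is no Galois extension of `ℚ` with group `S₃` unramified outside `5`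
(it would be unramified over `ℚ(√5)`, of degree `6` and discriminant dividing `5³`;
Minkowski's bound for degree `6` is `> 985`). -/
def StmtS3 : Prop :=
  ∀ N : Subgroup GQ, EcbigUnr 5 N → ∀ H : Subgroup GQ, N ≤ H → H.Normal → H.index = 6 →
    ∀ σ τ : GQ, σ * τ * σ⁻¹ * τ⁻¹ ∈ H

/-- **TAME-AB** (a tool for S3-5): in a finite Galois extension of degree prime to `p`, the
inertia group at `p` is commutative (`σ ↦ σ z / z mod 𝔪` is multiplicative, `tame_N` of
`S15/ToricTameA.lean`). -/
def StmtTameAb : Prop :=
  ∀ (p : ℕ), p.Prime → ∀ A : ValuationSubring Qbar, A.LiesOverPrime p →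
    ∀ H : Subgroup GQ, H.Normal →
      (∃ S : Finset Qbar, ∀ σ : GQ, (∀ s ∈ S, σ s = s) → σ ∈ H) → ¬ p ∣ H.index →
      ∀ σ ∈ A.inertiaSubgroupIn ℚ, ∀ τ ∈ A.inertiaSubgroupIn ℚ, σ * τ * σ⁻¹ * τ⁻¹ ∈ H

/-- **TWOGRP**: a finite `2`-group with at most one subgroup of index two is commutative
(it is cyclic). -/
def StmtTwoGroup : Prop :=
  ∀ (G : Type) [Group G] [Finite G], (∃ n : ℕ, Nat.card G = 2 ^ n) →
    (∀ H₁ H₂ : Subgroup G, H₁.index = 2 → H₂.index = 2 → H₁ = H₂) →
    ∀ a b : G, a * b = b * a

/-- **GRP3**: a subgroup of `GL₂(𝔽₃)` without elements of order `3` and with at most one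
subgroup of index two is commutative. -/
def StmtGrp3 : Prop :=
  ∀ (G : Type) [Group G] [Finite G] (φ : G →* GL (Fin 2) (ZMod 3)), Function.Injective φ →
    (∀ g : G, g ^ 3 = 1 → g = 1) →
    (∀ H₁ H₂ : Subgroup G, H₁.index = 2 → H₂.index = 2 → H₁ = H₂) →
    ∀ a b : G, a * b = b * a

/-- **GRP5**: a subgroup `G` of `GL₂(𝔽₅)` without elements of order `5`, with at most one
subgroup of index two, without normal subgroups of index three, whose quotients of order six
are commutative, and which contains an involution `c` of determinant `-1` lying in every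
subgroup of index two, is commutative. -/
def StmtGrp5 : Prop :=
  ∀ (G : Type) [Group G] [Finite G] (φ : G →* GL (Fin 2) (ZMod 5)), Function.Injective φ →
    (∀ g : G, g ^ 5 = 1 → g = 1) →
    (∀ H₁ H₂ : Subgroup G, H₁.index = 2 → H₂.index = 2 → H₁ = H₂) →
    (∀ H : Subgroup G, H.Normal → H.index ≠ 3) →
    (∀ H : Subgroup G, H.Normal → H.index = 6 → ∀ a b : G, a * b * a⁻¹ * b⁻¹ ∈ H) →
    ∀ c : G, c * c = 1 → (φ c).1.det = -1 → (∀ H : Subgroup G, H.index = 2 → c ∈ H) →
    ∀ a b : G, a * b = b * a

end Fermat.Agent.EC
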