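import Mathlib
import Fermat.Agent.EC.Big.Plan
import Fermat.Agent.S05.FreyArith
import Fermat.Agent.S05.Inertia
import Fermat.Agent.S13.Minkowski
import Fermat.Agent.Common.FrobProfinite

/-!
# E-BIG, piece QUAD: quadratic fields unramified outside `p`

* `ecbig_apply_eq_or_neg` : `z² ∈ ℤ` ⇒ `τ z = ± z`;
* `ecbig_inertia_fix_of_unit` : inertia at an odd prime `q` fixes the square roots of the
  integers prime to `q`;
* `ecbig_inertia_two_fix` : inertia at `2` fixes the square roots of the integers `≡ 1 mod 4`;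
* `ecbig_fixed_of_unit` : (Minkowski) a square root `z` of an integer prime to the odd prime `p`
  which is fixed by the inertia groups at all `q ≠ p` is fixed by `G_ℚ`;
* `stmtQuad : StmtQuad`.
-/

set_option autoImplicit false
set_option linter.style.haveILetI false

namespace Fermat.Agent.EC

open Fermat.Agent.S05 Polynomial

/-- `ℚ̄` -/
local notation "Qbar" => AlgebraicClosure ℚ
/-- `G_ℚ` -/
local notation "GQ" => (AlgebraicClosure ℚ ≃ₐ[ℚ] AlgebraicClosure ℚ)

/-- an algebraic number whose square is an integer is mapped to `±` itself -/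
theorem ecbig_apply_eq_or_neg {z : Qbar} {u : ℤ} (hz : z ^ 2 = (u : Qbar)) (τ : GQ) :
    τ z = z ∨ τ z = -z := by
  have h : (τ z) ^ 2 = z ^ 2 := by rw [← map_pow, hz, map_intCast]
  exact sq_eq_sq_iff_eq_or_eq_neg.1 h

/-- a square root of an integer is integral, hence lies in every valuation subring -/
theorem ecbig_sqrt_mem (A : ValuationSubring Qbar) {z : Qbar} {u : ℤ}
    (hz : z ^ 2 = (u : Qbar)) : z ∈ A := by
  refine Fermat.Agent.S13.Minkowski.mem_of_isIntegral_int A z ?_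
  refine IsIntegral.of_pow (n := 2) (by norm_num) ?_
  rw [hz, ← eq_intCast (algebraMap ℤ Qbar) u]
  exact isIntegral_algebraMap

/-- the valuation of a square root of an integer prime to `q` -/
theorem ecbig_sqrt_val {q : ℕ} (hq : q.Prime) (A : ValuationSubring Qbar)
    (hA : A.LiesOverPrime q) {z : Qbar} {u : ℤ} (hz : z ^ 2 = (u : Qbar))
    (hu : ¬ (q : ℤ) ∣ u) : A.valuation z = 1 := by
  have h1 : A.valuation z ^ 2 = 1 := by
    rw [← map_pow, hz, (valuation_intCast_eq_one_iff A hq hA u).2 hu]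
  exact ((pow_eq_one_iff (M := A.ValueGroup)).1 h1).resolve_right (by norm_num)

/-- inertia at an odd prime `q` fixes the square roots of the integers prime to `q` -/
theorem ecbig_inertia_fix_of_unit {q : ℕ} (hq : q.Prime) (hq2 : q ≠ 2)
    (A : ValuationSubring Qbar) (hA : A.LiesOverPrime q) {z : Qbar} {u : ℤ}
    (hz : z ^ 2 = (u : Qbar)) (hu : ¬ (q : ℤ) ∣ u) {σ : GQ}
    (hσ : σ ∈ A.inertiaSubgroupIn ℚ) : σ z = z := by
  rcases ecbig_apply_eq_or_neg hz σ with h | h
  · exact h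
  · exfalso
    have h1 := inertia_apply_sub_mem_nonunits hσ (ecbig_sqrt_mem A hz)
    rw [h, ValuationSubring.mem_nonunits_iff] at h1
    have h2 : -z - z = -(2 * z) := by ring
    rw [h2, Valuation.map_neg, map_mul, valuation_two_eq_one A hq hA hq2,
      ecbig_sqrt_val hq A hA hz hu, one_mul] at h1
    exact lt_irrefl _ h1

/-- inertia at `2` fixes the square roots of the integers `≡ 1 mod 4` -/
theorem ecbig_inertia_two_fix (A : ValuationSubring Qbar) (hA : A.LiesOverPrime 2)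
    {s : Qbar} {d : ℤ} (hs : s ^ 2 = (d : Qbar)) (hd : d % 4 = 1) {σ : GQ}
    (hσ : σ ∈ A.inertiaSubgroupIn ℚ) : σ s = s := by
  rcases ecbig_apply_eq_or_neg hs σ with h | h
  · exact h
  · exfalso
    obtain ⟨e, he⟩ : ∃ e : ℤ, d = 4 * e + 1 := ⟨d / 4, by omega⟩
    set t : Qbar := (1 + s) / 2 with ht
    have htint : IsIntegral ℤ t := by
      refine ⟨X ^ 2 - (X + Polynomial.C e),
        monic_X_pow_sub (by rw [degree_X_add_C]; norm_num), ?_⟩
      rw [eval₂_sub, eval₂_pow, eval₂_X, eval₂_add, eval₂_X, Polynomial.eval₂_C, eq_intCast]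
      have hd' : (d : Qbar) = 4 * (e : Qbar) + 1 := by rw [he]; push_cast; ring
      rw [ht]
      field_simp
      linear_combination hs + hd'
    have htA : t ∈ A := Fermat.Agent.S13.Minkowski.mem_of_isIntegral_int A t htint
    have h1 := inertia_apply_sub_mem_nonunits hσ htA
    have h2 : σ t - t = -s := by
      rw [ht, map_div₀, map_add, map_one, map_ofNat, h]
      ring
    have hodd : ¬ ((2 : ℕ) : ℤ) ∣ d := by
      intro h3
      have : d % 2 = 0 := by
        obtain ⟨c, hc⟩ := h3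
        rw [hc]; push_cast; omega
      omega
    rw [h2, ValuationSubring.mem_nonunits_iff, Valuation.map_neg,
      ecbig_sqrt_val Nat.prime_two A hA hs hodd] at h1
    exact lt_irrefl _ h1

/-- the stabiliser of an algebraic number -/
def ecbigStab (z : Qbar) : Subgroup GQ where
  carrier := {τ | τ z = z}
  one_mem' := rfl
  mul_mem' := by
    intro a b ha hb
    show (a * b) z = z
    rw [AlgEquiv.mul_apply, show b z = z from hb, show a z = z from ha]
  inv_mem' := by
    intro a ha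
    show a⁻¹ z = z
    have h1 : a z = z := ha
    calc a⁻¹ z = a⁻¹ (a z) := by rw [h1]
      _ = (a⁻¹ * a) z := rfl
      _ = z := by rw [inv_mul_cancel]; rfl

theorem mem_ecbigStab {z : Qbar} {τ : GQ} : τ ∈ ecbigStab z ↔ τ z = z := Iff.rfl

/-- the stabiliser of a square root of an integer is normal -/
theorem ecbigStab_normal {z : Qbar} {u : ℤ} (hz : z ^ 2 = (u : Qbar)) :
    (ecbigStab z).Normal := by
  refine ⟨fun τ hτ g => ?_⟩
  rw [mem_ecbigStab] at hτ ⊢
  have h1 : g (g⁻¹ z) = z := by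
    calc g (g⁻¹ z) = (g * g⁻¹) z := rfl
      _ = z := by rw [mul_inv_cancel]; rfl
  show g (τ (g⁻¹ z)) = z
  rcases ecbig_apply_eq_or_neg hz g⁻¹ with h | h
  · have h2 : τ (g⁻¹ z) = g⁻¹ z := by rw [h, hτ]
    rw [h2, h1]
  · have h2 : τ (g⁻¹ z) = g⁻¹ z := by rw [h, map_neg, hτ]
    rw [h2, h1]

/-- **Minkowski for quadratic fields**: a square root of an integer prime to the odd prime `p`
which is fixed by inertia at all `q ≠ p` is fixed by `G_ℚ`. -/
theorem ecbig_fixed_of_unit {p : ℕ} (hp : p.Prime) (hp2 : p ≠ 2) {z : Qbar} {u : ℤ}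
    (hz : z ^ 2 = (u : Qbar)) (hu : ¬ (p : ℤ) ∣ u)
    (hunr : ∀ q : ℕ, q.Prime → q ≠ p → ∃ A : ValuationSubring Qbar, A.LiesOverPrime q ∧
      ∀ σ ∈ A.inertiaSubgroupIn ℚ, σ z = z) :
    ∀ τ : GQ, τ z = z := by
  have htop : ecbigStab z = ⊤ := by
    refine Fermat.Agent.S13.Minkowski.minkowski_glue _ (ecbigStab_normal hz)
      ⟨{z}, fun σ hσ => hσ z (Finset.mem_singleton_self z)⟩ ?_
    intro q hq
    by_cases hqp : q = p
    · subst hqp
      obtain ⟨A, hA⟩ := Fermat.Agent.Common.exists_liesOverPrime q hq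
      exact ⟨A, hA, fun σ hσ => ecbig_inertia_fix_of_unit hq hp2 A hA hz hu hσ⟩
    · obtain ⟨A, hA, h⟩ := hunr q hq hqp
      exact ⟨A, hA, fun σ hσ => h σ hσ⟩
  intro τ
  have : τ ∈ ecbigStab z := by rw [htop]; trivial
  exact this

/-- an element outside a subgroup of finite level moves some element fixed by the subgroup -/
theorem ecbig_exists_fixed_moved (H : Subgroup GQ)
    (hlev : ∃ S : Finset Qbar, ∀ σ : GQ, (∀ s ∈ S, σ s = s) → σ ∈ H) {σ₁ : GQ}
    (hσ₁ : σ₁ ∉ H) : ∃ x : Qbar, (∀ τ ∈ H, τ x = x) ∧ σ₁ x ≠ x := by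
  classical
  obtain ⟨S, hS⟩ := hlev
  haveI := Fermat.Agent.Common.isAlgClosure_rat_qbar
  set F : IntermediateField ℚ Qbar := IntermediateField.adjoin ℚ (S : Set Qbar) with hF
  haveI : FiniteDimensional ℚ F :=
    IntermediateField.finiteDimensional_adjoin (fun x _ =>
      (Algebra.IsIntegral.isIntegral (R := ℚ) x))
  have hFH : F.fixingSubgroup ≤ H := by
    intro σ hσ
    apply hS
    intro s hs
    exact (IntermediateField.mem_fixingSubgroup_iff _ σ).mp hσ s
      (IntermediateField.subset_adjoin ℚ _ (Finset.mem_coe.mpr hs))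
  have hopen : IsOpen (H : Set GQ) := Subgroup.isOpen_mono hFH F.fixingSubgroup_isOpen
  have hclosed : IsClosed (H : Set GQ) := Subgroup.isClosed_of_isOpen H hopen
  let Hc : ClosedSubgroup GQ := ⟨H, hclosed⟩
  set L : IntermediateField ℚ Qbar := IntermediateField.fixedField H with hL
  have hLH : L.fixingSubgroup = H := InfiniteGalois.fixingSubgroup_fixedField Hc
  have h1 : σ₁ ∉ L.fixingSubgroup := by rw [hLH]; exact hσ₁
  rw [IntermediateField.mem_fixingSubgroup_iff] at h1
  rw [not_forall] at h1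
  obtain ⟨x, hx⟩ := h1
  rw [Classical.not_imp] at hx
  refine ⟨x, fun τ hτ => ?_, hx.2⟩
  exact (IntermediateField.mem_fixedField_iff H x).1 hx.1 τ hτ

/-- an algebraic number fixed by `G_ℚ` is rational -/
theorem ecbig_rat_of_fixed {x : Qbar} (h : ∀ τ : GQ, τ x = x) :
    ∃ r : ℚ, algebraMap ℚ Qbar r = x := by
  haveI := Fermat.Agent.Common.isAlgClosure_rat_qbar
  have h1 : x ∈ IntermediateField.fixedField (⊤ : Subgroup GQ) := by
    rw [IntermediateField.mem_fixedField_iff]
    exact fun τ _ => h τ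
  have h2 : IntermediateField.fixedField (⊤ : Subgroup GQ) = ⊥ := by
    rw [← IntermediateField.fixingSubgroup_bot (F := ℚ) (E := Qbar)]
    exact InfiniteGalois.fixedField_fixingSubgroup ⊥
  rw [h2, IntermediateField.mem_bot] at h1
  exact h1

/-- a subgroup of index two and finite level is cut out by a square root `y` of an integer:
`τ y = y` on `H`, `τ y = -y` outside. -/
theorem ecbig_exists_sqrt (H : Subgroup GQ) (hH : H.index = 2)
    (hlev : ∃ S : Finset Qbar, ∀ σ : GQ, (∀ s ∈ S, σ s = s) → σ ∈ H) :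
    ∃ (y : Qbar) (m : ℤ), y ≠ 0 ∧ y ^ 2 = (m : Qbar) ∧ (∀ τ ∈ H, τ y = y) ∧
      ∀ τ : GQ, τ ∉ H → τ y = -y := by
  obtain ⟨σ₁, hσ₁⟩ : ∃ σ₁ : GQ, σ₁ ∉ H := by
    by_contra hcon
    rw [not_exists] at hcon
    have : H = ⊤ := eq_top_iff.2 (fun x _ => not_not.1 (hcon x))
    rw [this, Subgroup.index_top] at hH
    omega
  obtain ⟨x, hxH, hxσ⟩ := ecbig_exists_fixed_moved H hlev hσ₁
  have hout : ∀ τ : GQ, τ ∉ H → τ x = σ₁ x := by
    intro τ hτ
    have h1 : σ₁⁻¹ * τ ∈ H := by
      rw [Subgroup.mul_mem_iff_of_index_two hH]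
      constructor
      · intro h
        exact absurd (H.inv_mem_iff.1 h) hσ₁
      · intro h
        exact absurd h hτ
    have h2 := hxH _ h1
    have h3 : σ₁ ((σ₁⁻¹ * τ) x) = τ x := by
      show (σ₁ * (σ₁⁻¹ * τ)) x = τ x
      rw [mul_inv_cancel_left]
    rw [← h3, h2]
  have hx'H : ∀ τ ∈ H, τ (σ₁ x) = σ₁ x := by
    intro τ hτ
    have : τ * σ₁ ∉ H := by
      rw [Subgroup.mul_mem_iff_of_index_two hH]
      tauto
    exact hout (τ * σ₁) this
  have hx'out : ∀ τ : GQ, τ ∉ H → τ (σ₁ x) = x := by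
    intro τ hτ
    have : τ * σ₁ ∈ H := by
      rw [Subgroup.mul_mem_iff_of_index_two hH]
      tauto
    exact hxH _ this
  set y : Qbar := x - σ₁ x with hy
  have hy0 : y ≠ 0 := sub_ne_zero.2 (Ne.symm hxσ)
  have hyH : ∀ τ ∈ H, τ y = y := by
    intro τ hτ
    rw [hy, map_sub, hxH τ hτ, hx'H τ hτ]
  have hyout : ∀ τ : GQ, τ ∉ H → τ y = -y := by
    intro τ hτ
    rw [hy, map_sub, hout τ hτ, hx'out τ hτ]
    ring
  have hysq : ∀ τ : GQ, τ (y ^ 2) = y ^ 2 := by
    intro τ
    rw [map_pow]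
    by_cases hτ : τ ∈ H
    · rw [hyH τ hτ]
    · rw [hyout τ hτ]
      ring
  obtain ⟨r, hr⟩ := ecbig_rat_of_fixed hysq
  have hden : (r.den : Qbar) ≠ 0 := by exact_mod_cast r.den_nz
  refine ⟨(r.den : Qbar) * y, r.num * r.den, mul_ne_zero hden hy0, ?_, ?_, ?_⟩
  · have h1 : (r : Qbar) = (r.num : Qbar) / (r.den : Qbar) := by
      conv_lhs => rw [← Rat.num_div_den r]
      push_cast
      rfl
    rw [mul_pow, ← hr, eq_ratCast, h1]
    push_cast
    field_simp
  · intro τ hτ
    rw [map_mul, map_natCast, hyH τ hτ]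
  · intro τ hτ
    rw [map_mul, map_natCast, hyout τ hτ]
    ring

/-- a prime `q ≠ p` does not divide `d = ± p` -/
theorem ecbig_not_dvd_of_natAbs {p q : ℕ} (hp : p.Prime) (hq : q.Prime) (hqp : q ≠ p) {d : ℤ}
    (hd : d.natAbs = p) : ¬ (q : ℤ) ∣ d := by
  intro h
  have h1 : q ∣ d.natAbs := Int.natCast_dvd.1 h
  rw [hd] at h1
  exact hqp ((Nat.prime_dvd_prime_iff_eq hq hp).1 h1)

/-- **QUAD**. -/
theorem stmtQuad : StmtQuad := by
  intro p hp hp2 d hd hd4 s hs N hN H hNH hH
  have hlev : ∃ S : Finset Qbar, ∀ σ : GQ, (∀ s ∈ S, σ s = s) → σ ∈ H := by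
    obtain ⟨S, hS⟩ := hN.level
    exact ⟨S, fun σ h => hNH (hS σ h)⟩
  obtain ⟨y, m, hy0, hysq, hyH, hyout⟩ := ecbig_exists_sqrt H hH hlev
  obtain ⟨σ₁, hσ₁⟩ : ∃ σ₁ : GQ, σ₁ ∉ H := by
    by_contra hcon
    rw [not_exists] at hcon
    have : H = ⊤ := eq_top_iff.2 (fun x _ => not_not.1 (hcon x))
    rw [this, Subgroup.index_top] at hH
    omega
  have hpQ : (p : Qbar) ≠ 0 := by exact_mod_cast hp.ne_zero
  have hm0 : m ≠ 0 := by
    intro h
    rw [h, Int.cast_zero] at hysq
    exact hy0 (pow_eq_zero_iff (two_ne_zero) |>.1 hysq)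
  have hfin : FiniteMultiplicity (p : ℤ) m := by
    rw [Int.finiteMultiplicity_iff]
    refine ⟨?_, hm0⟩
    rw [Int.natAbs_natCast]
    exact hp.one_lt.ne'
  obtain ⟨m', hmk, hm'⟩ := hfin.exists_eq_pow_mul_and_not_dvd
  set k : ℕ := multiplicity (p : ℤ) m with hk
  -- inertia at `q ≠ p` fixes `y`
  have hIy : ∀ q : ℕ, q.Prime → q ≠ p → ∀ A : ValuationSubring Qbar, A.LiesOverPrime q →
      ∀ σ ∈ A.inertiaSubgroupIn ℚ, σ y = y :=
    fun q hq hqp A hA σ hσ => hyH σ (hNH (hN.unr q hq hqp A hA hσ))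
  rcases Nat.even_or_odd' k with ⟨j, hj | hj⟩
  · -- `k` even: `y / p ^ j` is a square root of `m'`, fixed by everything: impossible
    exfalso
    set z : Qbar := y / (p : Qbar) ^ j with hz
    have hzsq : z ^ 2 = (m' : Qbar) := by
      rw [hz, div_pow, hysq, hmk, hj]
      push_cast
      have hpj2 : ((p : Qbar) ^ j) ^ 2 ≠ 0 := pow_ne_zero 2 (pow_ne_zero j hpQ)
      rw [div_eq_iff hpj2, ← pow_mul, mul_comm j 2]
      ring
    have hfix := ecbig_fixed_of_unit hp hp2 hzsq hm' (fun q hq hqp => by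
      obtain ⟨A, hA⟩ := Fermat.Agent.Common.exists_liesOverPrime q hq
      refine ⟨A, hA, fun σ hσ => ?_⟩
      rw [hz, map_div₀, map_pow, map_natCast, hIy q hq hqp A hA σ hσ])
    have h1 := hfix σ₁
    rw [hz, map_div₀, map_pow, map_natCast, hyout σ₁ hσ₁] at h1
    have h2 : -y = y := by
      have h3 := congrArg (fun t => t * (p : Qbar) ^ j) h1
      simpa [div_mul_cancel₀ _ (pow_ne_zero j hpQ)] using h3
    have h4 : (2 : Qbar) * y = 0 := by linear_combination -h2
    rcases mul_eq_zero.1 h4 with h5 | h5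
    · exact two_ne_zero h5
    · exact hy0 h5
  · -- `k` odd
    have hs0 : s ≠ 0 := by
      intro h
      rw [h] at hs
      have : (d : Qbar) = 0 := by rw [← hs]; ring
      have hd0 : d = 0 := by exact_mod_cast this
      rw [hd0] at hd
      exact hp.ne_zero hd.symm
    -- `u = ± m'`
    obtain ⟨u, hu, hud⟩ : ∃ u : ℤ, ¬ (p : ℤ) ∣ u ∧ (p : ℤ) * m' = d * u := by
      rcases Int.natAbs_eq d with h | h
      · exact ⟨m', hm', by rw [h, hd]⟩
      · refine ⟨-m', ?_, by rw [h, hd]; ring⟩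
        rwa [Int.dvd_neg]
    set z : Qbar := y / ((p : Qbar) ^ j * s) with hz
    have hzsq : z ^ 2 = (u : Qbar) := by
      have hdQ : (d : Qbar) ≠ 0 := by rw [← hs]; exact pow_ne_zero 2 hs0
      have hud' : (p : Qbar) * (m' : Qbar) = (d : Qbar) * (u : Qbar) := by exact_mod_cast hud
      rw [hz, div_pow, hysq, hmk, hj, mul_pow, hs]
      push_cast
      rw [div_eq_iff (mul_ne_zero (pow_ne_zero 2 (pow_ne_zero j hpQ)) hdQ)]
      have : ((p : Qbar)) ^ (2 * j + 1) = ((p : Qbar) ^ j) ^ 2 * p := by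
        rw [pow_succ, pow_mul, ← pow_mul, mul_comm 2 j, pow_mul]
      rw [this]
      linear_combination ((p : Qbar) ^ j) ^ 2 * hud'
    have hIs : ∀ q : ℕ, q.Prime → q ≠ p → ∀ A : ValuationSubring Qbar, A.LiesOverPrime q →
        ∀ σ ∈ A.inertiaSubgroupIn ℚ, σ s = s := by
      intro q hq hqp A hA σ hσ
      by_cases hq2 : q = 2
      · subst hq2
        exact ecbig_inertia_two_fix A hA hs hd4 hσ
      · exact ecbig_inertia_fix_of_unit hq hq2 A hA hs (ecbig_not_dvd_of_natAbs hp hq hqp hd) hσ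
    have hfix := ecbig_fixed_of_unit hp hp2 hzsq hu (fun q hq hqp => by
      obtain ⟨A, hA⟩ := Fermat.Agent.Common.exists_liesOverPrime q hq
      refine ⟨A, hA, fun σ hσ => ?_⟩
      rw [hz, map_div₀, map_mul, map_pow, map_natCast, hIy q hq hqp A hA σ hσ,
        hIs q hq hqp A hA σ hσ])
    have key : ∀ τ : GQ, τ y * s = y * τ s := by
      intro τ
      have h1 := hfix τ
      rw [hz, map_div₀, map_mul, map_pow, map_natCast] at h1
      have hτs : τ s ≠ 0 := by
        rw [Ne, map_eq_zero]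
        exact hs0
      have hpj : (p : Qbar) ^ j ≠ 0 := pow_ne_zero j hpQ
      rw [div_eq_div_iff (mul_ne_zero hpj hτs) (mul_ne_zero hpj hs0)] at h1
      have h2 : (p : Qbar) ^ j * (τ y * s) = (p : Qbar) ^ j * (y * τ s) := by
        linear_combination h1
      exact mul_left_cancel₀ hpj h2
    intro σ
    constructor
    · intro hσ
      have h1 := key σ
      rw [hyH σ hσ] at h1
      exact (mul_left_cancel₀ hy0 h1).symm
    · intro hσs
      by_contra hσ
      have h1 := key σ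
      rw [hyout σ hσ, hσs] at h1
      have h4 : (2 : Qbar) * (y * s) = 0 := by linear_combination -h1
      rcases mul_eq_zero.1 h4 with h5 | h5
      · exact two_ne_zero h5
      · exact (mul_ne_zero hy0 hs0) h5

end Fermat.Agent.EC
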