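import Mathlib
import Fermat.Agent.EC.Big.Plan

/-!
# E-BIG, pieces TWOGRP and GRP3

* `stmtTwoGroup : StmtTwoGroup` — a finite `2`-group with at most one subgroup of index two is
  cyclic, hence commutative;
* `stmtGrp3 : StmtGrp3` — a subgroup of `GL₂(𝔽₃)` without elements of order three and with at
  most one subgroup of index two is commutative.
-/

set_option autoImplicit false
set_option linter.style.haveILetI false

namespace Fermat.Agent.EC

/-- TWOGRP, for any prime `ℓ`: a finite `ℓ`-group with at most one subgroup of index `ℓ` is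
commutative. -/
theorem ecbig_pgroup_comm (ℓ : ℕ) [hℓ : Fact ℓ.Prime] (G : Type) [Group G] [Finite G]
    (hcard : ∃ n : ℕ, Nat.card G = ℓ ^ n)
    (huniq : ∀ H₁ H₂ : Subgroup G, H₁.index = ℓ → H₂.index = ℓ → H₁ = H₂) :
    ∀ a b : G, a * b = b * a := by
  obtain ⟨n, hn⟩ := hcard
  have hℓ1 : 1 < ℓ := hℓ.out.one_lt
  rcases Nat.eq_zero_or_pos n with h0 | hpos
  · rw [h0, pow_zero] at hn
    have hsub : Subsingleton G := (Nat.card_eq_one_iff_unique.1 hn).1
    intro a b
    exact Subsingleton.elim _ _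
  -- a subgroup `M` of index `ℓ`
  have hidx : ∀ K : Subgroup G, Nat.card K = ℓ ^ (n - 1) → K.index = ℓ := by
    intro K hK
    have h1 := K.index_mul_card
    rw [hK, hn] at h1
    have h2 : ℓ ^ n = ℓ * ℓ ^ (n - 1) := by
      rw [← pow_succ']
      congr 1
      omega
    rw [h2] at h1
    exact Nat.eq_of_mul_eq_mul_right (pow_pos hℓ.out.pos _) h1
  obtain ⟨M, hM⟩ := Sylow.exists_subgroup_card_pow_prime (G := G) ℓ (n := n - 1)
    (by rw [hn]; exact pow_dvd_pow ℓ (Nat.sub_le n 1))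
  have hMidx : M.index = ℓ := hidx M hM
  have hMtop : M ≠ ⊤ := by
    intro h
    rw [h, Subgroup.index_top] at hMidx
    omega
  obtain ⟨g, hg⟩ : ∃ g : G, g ∉ M := by
    by_contra hcon
    rw [not_exists] at hcon
    apply hMtop
    rw [eq_top_iff]
    intro x _
    have := hcon x
    rwa [not_not] at this
  -- `⟨g⟩ = ⊤`
  have hgtop : Subgroup.zpowers g = ⊤ := by
    by_contra hne
    have hdvd : Nat.card (Subgroup.zpowers g) ∣ ℓ ^ n := hn ▸ Subgroup.card_subgroup_dvd_card _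
    obtain ⟨m, hmn, hm⟩ := (Nat.dvd_prime_pow hℓ.out).1 hdvd
    have hmlt : m < n := by
      rcases Nat.lt_or_ge m n with h | h
      · exact h
      · exfalso
        apply hne
        have : m = n := le_antisymm hmn h
        rw [← Subgroup.card_eq_iff_eq_top, hm, this, hn]
    obtain ⟨K, hK, hle⟩ := Sylow.exists_subgroup_card_pow_prime_le (G := G) ℓ (m := n - 1)
      (by rw [hn]; exact pow_dvd_pow ℓ (Nat.sub_le n 1)) (Subgroup.zpowers g) hm (by omega)
    have hKM : K = M := huniq K M (hidx K hK) hMidx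
    exact hg (hKM ▸ hle (Subgroup.mem_zpowers g))
  intro a b
  have ha : a ∈ Subgroup.zpowers g := by rw [hgtop]; trivial
  have hb : b ∈ Subgroup.zpowers g := by rw [hgtop]; trivial
  obtain ⟨i, rfl⟩ := Subgroup.mem_zpowers_iff.1 ha
  obtain ⟨j, rfl⟩ := Subgroup.mem_zpowers_iff.1 hb
  rw [← zpow_add, ← zpow_add, add_comm]

/-- **TWOGRP**. -/
theorem stmtTwoGroup : StmtTwoGroup := by
  intro G _ _ hcard huniq
  haveI : Fact (Nat.Prime 2) := ⟨Nat.prime_two⟩
  exact ecbig_pgroup_comm 2 G hcard huniq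

/-- the order of `GL₂(𝔽₃)` -/
theorem ecbig_card_GL3 : Nat.card (GL (Fin 2) (ZMod 3)) = 48 := by
  rw [Matrix.card_GL_field]
  simp [Fin.prod_univ_two, ZMod.card]

/-- the order of `GL₂(𝔽₅)` -/
theorem ecbig_card_GL5 : Nat.card (GL (Fin 2) (ZMod 5)) = 480 := by
  haveI : Fact (Nat.Prime 5) := ⟨by norm_num⟩
  have h := Matrix.card_GL_field (𝔽 := ZMod 5) 2
  rw [Fin.prod_univ_two, ZMod.card] at h
  simpa using h

/-- **GRP3**. -/
theorem stmtGrp3 : StmtGrp3 := by
  intro G _ _ φ hφ h3 huniq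
  haveI : Fact (Nat.Prime 3) := ⟨Nat.prime_three⟩
  have hdvd : Nat.card G ∣ 48 := ecbig_card_GL3 ▸ Subgroup.card_dvd_of_injective φ hφ
  have h3' : ¬ 3 ∣ Nat.card G := by
    intro h
    obtain ⟨x, hx⟩ := exists_prime_orderOf_dvd_card' (G := G) 3 h
    have h1 : x ^ 3 = 1 := by rw [← hx]; exact pow_orderOf_eq_one x
    have h2 := h3 x h1
    rw [h2, orderOf_one] at hx
    omega
  have h16 : Nat.card G ∣ 16 := by
    have hcop : Nat.Coprime (Nat.card G) 3 :=
      (Nat.coprime_comm.1 ((Nat.Prime.coprime_iff_not_dvd Nat.prime_three).2 h3'))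
    have : Nat.card G ∣ 16 * 3 := hdvd
    exact hcop.dvd_of_dvd_mul_right this
  apply stmtTwoGroup G ?_ huniq
  obtain ⟨m, _, hm⟩ := (Nat.dvd_prime_pow Nat.prime_two (m := 4)).1 h16
  exact ⟨m, hm⟩

end Fermat.Agent.EC
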