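import Mathlib
import Fermat.Prelude.Def_GaloisRep_Residual
import Fermat.Prelude.Def_GaloisRep_ComplexConjugation
import Fermat.Agent.EC.Big.Plan
import Fermat.Agent.EC.Big.Crit
import Fermat.Agent.EC.Big.Quad
import Fermat.Agent.EC.Big.TwoGroup
import Fermat.Agent.EC.Abs

/-!
# E-BIG, piece ASM: assembly (abstract form)

`ρ : ResidualGaloisRep k`, `k ≃+* ZMod p`, irreducible, odd, unipotent on the inertia groups at
all primes `q ≠ p`.

* `ecbigPhi` : `ρ` in matrix form, `G_ℚ →* GL₂(𝔽_p)`;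
* `ecbig_unr` : if the image contains no nontrivial unipotent element, `ker ρ` is unramified
  outside `p` (`EcbigUnr`);
* `ecbig_caseB_three`, `ecbig_caseB_five` : in that case `False`;
* `ecbig_exists_comm_three`, `ecbig_exists_comm_five` : every subgroup of index two contains
  a commutator of trace `≠ 2`.
-/

set_option autoImplicit false
set_option linter.style.haveILetI false
set_option linter.unusedSectionVars false

namespace Fermat.Agent.EC

open Polynomial

/-- `ℚ̄` -/
local notation "Qbar" => AlgebraicClosure ℚ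
/-- `G_ℚ` -/
local notation "GQ" => (AlgebraicClosure ℚ ≃ₐ[ℚ] AlgebraicClosure ℚ)

section Phi

variable {p : ℕ} {k : Type} [Field k] (e : k ≃+* ZMod p) (ρ : ResidualGaloisRep k)
  (b : Module.Basis (Fin 2) k ρ.V)

/-- endomorphisms as matrices over `𝔽_p` -/
noncomputable def ecbigT : Module.End k ρ.V →+* Matrix (Fin 2) (Fin 2) (ZMod p) :=
  (e.toRingHom.mapMatrix).comp ((LinearMap.toMatrixAlgEquiv b) : Module.End k ρ.V →+* _)

theorem ecbigT_apply (f : Module.End k ρ.V) (i j : Fin 2) :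
    ecbigT e ρ b f i j = e (LinearMap.toMatrix b b f i j) := rfl

theorem ecbigT_injective : Function.Injective (ecbigT e ρ b) := by
  intro f g h
  apply (LinearMap.toMatrix b b).injective
  ext i j
  have := congrFun (congrFun h i) j
  rw [ecbigT_apply, ecbigT_apply] at this
  exact e.injective this

theorem ecbigT_det (f : Module.End k ρ.V) : (ecbigT e ρ b f).det = e (LinearMap.det f) := by
  have h1 : ecbigT e ρ b f = (e.toRingHom.mapMatrix) (LinearMap.toMatrix b b f) := rfl
  rw [h1, ← LinearMap.det_toMatrix b f, RingHom.mapMatrix_apply]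
  exact (RingHom.map_det e.toRingHom _).symm

/-- `ρ` in matrix form -/
noncomputable def ecbigPhi : GQ →* GL (Fin 2) (ZMod p) :=
  (Units.map ((ecbigT e ρ b : Module.End k ρ.V →* _))).comp ρ.ρ.toHomUnits

theorem ecbigPhi_val (σ : GQ) : (ecbigPhi e ρ b σ).1 = ecbigT e ρ b (ρ.ρ σ) := rfl

theorem ecbigPhi_eq_iff (σ τ : GQ) : ecbigPhi e ρ b σ = ecbigPhi e ρ b τ ↔ ρ.ρ σ = ρ.ρ τ := by
  constructor
  · intro h
    have := congrArg (fun g : GL (Fin 2) (ZMod p) => g.1) h
    exact ecbigT_injective e ρ b this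
  · intro h
    apply Units.ext
    rw [ecbigPhi_val, ecbigPhi_val, h]

theorem ecbigPhi_eq_one_iff (σ : GQ) : ecbigPhi e ρ b σ = 1 ↔ ρ.ρ σ = 1 := by
  have := ecbigPhi_eq_iff e ρ b σ 1
  rwa [map_one, map_one] at this

end Phi

section Tools

/-- a finite-dimensional intermediate field is fixed as soon as a finite set is -/
theorem ecbig_exists_finset (L : IntermediateField ℚ Qbar) [FiniteDimensional ℚ L] :
    ∃ S : Finset Qbar, ∀ σ : GQ, (∀ s ∈ S, σ s = s) → ∀ x ∈ L, σ x = x := by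
  classical
  let B := Module.finBasis ℚ L
  refine ⟨Finset.univ.image (fun i => ((B i : L) : Qbar)), fun σ hσ x hx => ?_⟩
  have h1 : (⟨x, hx⟩ : L) = ∑ i, B.repr ⟨x, hx⟩ i • B i := (B.sum_repr ⟨x, hx⟩).symm
  have h2 : x = ((∑ i, B.repr ⟨x, hx⟩ i • B i : L) : Qbar) := congrArg Subtype.val h1
  have h3 : ((∑ i, B.repr ⟨x, hx⟩ i • B i : L) : Qbar)
      = ∑ i, algebraMap ℚ Qbar (B.repr ⟨x, hx⟩ i) * ((B i : L) : Qbar) := by
    rw [IntermediateField.coe_sum]
    refine Finset.sum_congr rfl fun i _ => ?_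
    rw [IntermediateField.coe_smul, Algebra.smul_def]
  rw [h2, h3, map_sum]
  refine Finset.sum_congr rfl fun i _ => ?_
  rw [map_mul, AlgEquiv.commutes, hσ _ (Finset.mem_image.2 ⟨i, Finset.mem_univ i, rfl⟩)]

variable {k : Type*} [Field k] {V : Type*} [AddCommGroup V] [Module k V]

/-- a nilpotent endomorphism of a plane has square zero -/
theorem ecbig_sq_zero_of_nilpotent (hfr : Module.finrank k V = 2) (N : Module.End k V) (n : ℕ)
    (hN : N ^ n = 0) : N * N = 0 := by
  have hfin : Module.Finite k V := Module.finite_of_finrank_eq_succ hfr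
  haveI : Nontrivial V := Module.nontrivial_of_finrank_pos (R := k) (by omega)
  have hdet : LinearMap.det N = 0 := by
    have h1 : LinearMap.det N ^ n = 0 := by
      rw [← map_pow, hN]
      exact LinearMap.det_zero' (Module.finBasisOfFinrankEq k V hfr)
    exact (pow_eq_zero_iff (fun h => by
      rw [h, pow_zero] at h1
      exact one_ne_zero h1)).1 h1
  have hCH := ecbig_cayley hfr N
  rw [hdet, zero_smul, add_zero, sub_eq_zero] at hCH
  set t := LinearMap.trace k V N with ht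
  have hpow : ∀ m : ℕ, N ^ (m + 1) = t ^ m • N := by
    intro m
    induction m with
    | zero => simp
    | succ m ih => rw [pow_succ, ih, smul_mul_assoc, hCH, smul_smul, ← pow_succ]
  rcases Nat.eq_zero_or_pos n with h0 | hpos
  · rw [h0, pow_zero] at hN
    calc N * N = N * N * 1 := (mul_one _).symm
      _ = 0 := by rw [hN, mul_zero]
  · obtain ⟨m, rfl⟩ : ∃ m, n = m + 1 := ⟨n - 1, by omega⟩
    rw [hpow m] at hN
    rcases smul_eq_zero.1 hN with h | h
    · rcases Nat.eq_zero_or_pos m with hm | hm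
      · rw [hm, pow_zero] at h
        exact absurd h one_ne_zero
      · have ht0 : t = 0 := (pow_eq_zero_iff hm.ne').1 h
        rw [hCH, ht0, zero_smul]
    · rw [h, mul_zero]

end Tools

section CaseB

variable {p : ℕ} [hp : Fact p.Prime] {k : Type} [Field k]

/-- the standing hypotheses: irreducible, odd, unipotent on inertia at all `q ≠ p` -/
structure EcbigHyp (p : ℕ) (ρ : ResidualGaloisRep k) : Prop where
  irr : ρ.IsIrreducible
  odd : ρ.IsOdd
  unip : ∀ q : ℕ, q.Prime → q ≠ p → ∀ A : ValuationSubring Qbar, A.LiesOverPrime q →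
    ∀ σ ∈ A.inertiaSubgroupIn ℚ, (ρ.ρ σ - 1) * (ρ.ρ σ - 1) = 0

/-- "the image contains no nontrivial unipotent element" -/
def EcbigNoUnip (ρ : ResidualGaloisRep k) : Prop :=
  ∀ σ : GQ, (ρ.ρ σ - 1) * (ρ.ρ σ - 1) = 0 → ρ.ρ σ = 1

variable (e : k ≃+* ZMod p) (ρ : ResidualGaloisRep k) (b : Module.Basis (Fin 2) k ρ.V)

/-- without unipotent elements, the kernel is unramified outside `p` -/
theorem ecbig_unr (h : EcbigHyp p ρ) (hnu : EcbigNoUnip ρ) :
    EcbigUnr p (ecbigPhi e ρ b).ker := by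
  refine ⟨inferInstance, ?_, ?_⟩
  · obtain ⟨L, hL, hLρ⟩ := ρ.factorsThroughFiniteLevel
    haveI := hL
    obtain ⟨S, hS⟩ := ecbig_exists_finset L
    exact ⟨S, fun σ hσ => MonoidHom.mem_ker.2
      ((ecbigPhi_eq_one_iff e ρ b σ).2 (hLρ σ (hS σ hσ)))⟩
  · intro q hq hqp A hA σ hσ
    exact MonoidHom.mem_ker.2 ((ecbigPhi_eq_one_iff e ρ b σ).2 (hnu σ (h.unip q hq hqp A hA σ hσ)))

/-- without unipotent elements, the image has no element of order `p` -/
theorem ecbig_no_order_p (hnu : EcbigNoUnip ρ) (g : (ecbigPhi e ρ b).range)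
    (hg : g ^ p = 1) : g = 1 := by
  obtain ⟨σ, hσ⟩ := g.2
  have h1 : (ecbigPhi e ρ b σ) ^ p = 1 := by
    have := congrArg Subtype.val hg
    rw [Subgroup.coe_pow, ← hσ] at this
    exact this
  have h2 : (ecbigT e ρ b (ρ.ρ σ)) ^ p = 1 := by
    have := congrArg (fun u : GL (Fin 2) (ZMod p) => u.1) h1
    simpa [ecbigPhi_val] using this
  have h3 : (ecbigT e ρ b (ρ.ρ σ) - 1) ^ p = 0 := by
    rw [sub_pow_char_of_commute p (Commute.one_right _), h2, one_pow, sub_self]
  have h4 : (ρ.ρ σ - 1) ^ p = 0 := by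
    apply ecbigT_injective e ρ b
    rw [map_pow, map_sub, map_one, h3, map_zero]
  have h5 := hnu σ (ecbig_sq_zero_of_nilpotent ρ.finrank_eq _ p h4)
  apply Subtype.ext
  rw [← hσ, (ecbigPhi_eq_one_iff e ρ b σ).2 h5]
  rfl

/-- the subgroups of index two of the image coincide (QUAD) -/
theorem ecbig_index_two_unique (h : EcbigHyp p ρ) (hnu : EcbigNoUnip ρ) (hp2 : p ≠ 2)
    {d : ℤ} (hd : d.natAbs = p) (hd4 : d % 4 = 1) {s : Qbar} (hs : s ^ 2 = (d : Qbar))
    (H₁ H₂ : Subgroup (ecbigPhi e ρ b).range) (h1 : H₁.index = 2) (h2 : H₂.index = 2) :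
    H₁ = H₂ := by
  have hsurj := (ecbigPhi e ρ b).rangeRestrict_surjective
  have hN := ecbig_unr e ρ b h hnu
  have key : ∀ H : Subgroup (ecbigPhi e ρ b).range, H.index = 2 →
      ∀ σ : GQ, σ ∈ H.comap (ecbigPhi e ρ b).rangeRestrict ↔ σ s = s := by
    intro H hH
    refine stmtQuad p hp.out hp2 d hd hd4 s hs _ hN _ ?_ ?_
    · intro σ hσ
      rw [Subgroup.mem_comap]
      have : (ecbigPhi e ρ b).rangeRestrict σ = 1 := by
        apply Subtype.ext
        exact MonoidHom.mem_ker.1 hσ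
      rw [this]
      exact H.one_mem
    · rw [Subgroup.index_comap_of_surjective _ hsurj, hH]
  apply Subgroup.comap_injective hsurj
  ext σ
  rw [key H₁ h1 σ, key H₂ h2 σ]

/-- a commutative image contradicts irreducibility + oddness -/
theorem ecbig_comm_absurd (h : EcbigHyp p ρ) (h2 : (2 : k) ≠ 0)
    (hcomm : ∀ σ τ : GQ, ρ.ρ σ * ρ.ρ τ = ρ.ρ τ * ρ.ρ σ) : False := by
  set C := ρ.ρ complexConjugation with hC
  have hCC : C * C = 1 := by
    rw [hC, ← map_mul, complexConjugation_mul_self, map_one]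
  have hdet : LinearMap.det C = -1 :=
    h.odd complexConjugation complexConjugation_mul_self complexConjugation_ne_one
  have hne : (1 : k) ≠ -1 := by
    intro h3
    apply h2
    have : (2 : k) = 1 + 1 := by norm_num
    rw [this]
    nth_rewrite 1 [h3]
    ring
  have hst : ∀ σ : GQ, ∀ x ∈ LinearMap.ker (C - 1), ρ.ρ σ x ∈ LinearMap.ker (C - 1) := by
    intro σ x hx
    rw [LinearMap.mem_ker, LinearMap.sub_apply, Module.End.one_apply, sub_eq_zero] at hx ⊢
    have h3 : C (ρ.ρ σ x) = ρ.ρ σ (C x) := by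
      have := congrArg (fun f : Module.End k ρ.V => f x) (hcomm complexConjugation σ)
      simpa using this
    rw [h3, hx]
  rcases h.irr _ hst with h3 | h3
  · -- `C - 1` injective ⇒ `C = -1`
    have h4 : ∀ x, C x = -x := by
      intro x
      have h5 : (C - 1) (C x + x) = 0 := by
        have := congrArg (fun f : Module.End k ρ.V => f x) hCC
        simp only [Module.End.mul_apply, Module.End.one_apply] at this
        rw [LinearMap.sub_apply, Module.End.one_apply, map_add, this]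
        abel
      have h6 : C x + x ∈ LinearMap.ker (C - 1) := LinearMap.mem_ker.2 h5
      rw [h3, Submodule.mem_bot] at h6
      exact eq_neg_of_add_eq_zero_left h6
    have h7 : C = -1 := by
      ext x
      rw [h4 x]
      simp
    have h8 : LinearMap.det C = 1 := by
      have h9 : C = (-1 : k) • (1 : Module.End k ρ.V) := by rw [h7]; simp
      rw [h9, LinearMap.det_smul, map_one, ρ.finrank_eq]
      norm_num
    rw [hdet] at h8
    exact hne h8.symm
  · have h4 : C = 1 := by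
      have := LinearMap.ker_eq_top.1 h3
      exact sub_eq_zero.1 this
    rw [h4, map_one] at hdet
    exact hne hdet

/-- commutativity of the matrix image gives commutativity of `ρ` -/
theorem ecbig_comm_of_range
    (hcomm : ∀ a c : (ecbigPhi e ρ b).range, a * c = c * a) (σ τ : GQ) :
    ρ.ρ σ * ρ.ρ τ = ρ.ρ τ * ρ.ρ σ := by
  have h1 := hcomm ((ecbigPhi e ρ b).rangeRestrict σ) ((ecbigPhi e ρ b).rangeRestrict τ)
  rw [← map_mul, ← map_mul] at h1
  have h2 : ecbigPhi e ρ b (σ * τ) = ecbigPhi e ρ b (τ * σ) := congrArg Subtype.val h1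
  have h3 := (ecbigPhi_eq_iff e ρ b _ _).1 h2
  rwa [map_mul, map_mul] at h3

/-- `2 ≠ 0` in `k` -/
theorem ecbig_two_ne_zero {p : ℕ} [hp : Fact p.Prime] {k : Type} [Field k] (e : k ≃+* ZMod p)
    (hp2 : p ≠ 2) : (2 : k) ≠ 0 := by
  intro h
  have h1 := congrArg e h
  rw [map_ofNat, map_zero] at h1
  have h2 : ((2 : ℕ) : ZMod p) = 0 := by exact_mod_cast h1
  rw [ZMod.natCast_eq_zero_iff] at h2
  exact hp2 ((Nat.prime_dvd_prime_iff_eq hp.out Nat.prime_two).1 h2)

end CaseB

section Three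

variable {k : Type} [Field k]

/-- **Case (B), `p = 3`**: impossible. -/
theorem ecbig_caseB_three (e : k ≃+* ZMod 3) (ρ : ResidualGaloisRep k)
    (h : EcbigHyp 3 ρ) (hnu : EcbigNoUnip ρ) : False := by
  classical
  let b : Module.Basis (Fin 2) k ρ.V := Module.finBasisOfFinrankEq k ρ.V ρ.finrank_eq
  obtain ⟨s, hs⟩ := IsAlgClosed.exists_pow_nat_eq (-3 : Qbar) (n := 2) (by norm_num)
  have hs' : s ^ 2 = ((-3 : ℤ) : Qbar) := by rw [hs]; norm_num
  have hcomm := stmtGrp3 (ecbigPhi e ρ b).range (ecbigPhi e ρ b).range.subtype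
    (Subgroup.subtype_injective _)
    (fun g hg => ecbig_no_order_p e ρ b hnu g hg)
    (fun H₁ H₂ h1 h2 => ecbig_index_two_unique e ρ b h hnu (by norm_num)
      (d := -3) (by norm_num) (by norm_num) hs' H₁ H₂ h1 h2)
  exact ecbig_comm_absurd ρ h (ecbig_two_ne_zero e (by norm_num))
    (ecbig_comm_of_range e ρ b hcomm)

/-- **E-BIG, `p = 3`, commutator form.** -/
theorem ecbig_exists_comm_three (e : k ≃+* ZMod 3) (ρ : ResidualGaloisRep k)
    (h : EcbigHyp 3 ρ) (H : Subgroup GQ) (hH : H.index = 2) :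
    ∃ σ ∈ H, ∃ τ ∈ H, LinearMap.trace k ρ.V (ρ.ρ (σ * τ * σ⁻¹ * τ⁻¹)) ≠ 2 := by
  by_cases hex : ∃ σ₀ : GQ, ρ.ρ σ₀ ≠ 1 ∧ (ρ.ρ σ₀ - 1) * (ρ.ρ σ₀ - 1) = 0
  · obtain ⟨σ₀, h1, hu⟩ := hex
    exact ecbig_exists_comm_of_unipotent (ecbig_two_ne_zero e (by norm_num)) ρ h.irr σ₀ h1 hu
      H hH
  · exfalso
    refine ecbig_caseB_three e ρ h (fun σ hσ => ?_)
    by_contra hne
    exact hex ⟨σ, hne, hσ⟩

end Three

section Five

variable {k : Type} [Field k]

/-- complex conjugation fixes the square roots of `5` -/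
theorem ecbig_conj_sqrt_five {s : Qbar} (hs : s ^ 2 = ((5 : ℤ) : Qbar)) :
    complexConjugation s = s := by
  apply complexEmbedding.toRingHom.injective
  show complexEmbedding (complexConjugation s) = complexEmbedding s
  rw [complexEmbedding_complexConjugation]
  set z : ℂ := complexEmbedding s with hz
  have hz2 : z ^ 2 = 5 := by
    rw [hz, ← map_pow, hs, Int.cast_ofNat, map_ofNat]
  set r : ℝ := Real.sqrt 5 with hr
  have hr2 : (r : ℂ) ^ 2 = 5 := by
    have : r ^ 2 = 5 := Real.sq_sqrt (by norm_num)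
    exact_mod_cast this
  have h1 : (z - r) * (z + r) = 0 := by linear_combination hz2 - hr2
  rcases mul_eq_zero.1 h1 with h | h
  · rw [sub_eq_zero.1 h, Complex.conj_ofReal]
  · rw [eq_neg_of_add_eq_zero_left h, map_neg, Complex.conj_ofReal]

/-- **Case (B), `p = 5`**: impossible, given the pieces CUBIC5, S3-5 and GRP5. -/
theorem ecbig_caseB_five (e : k ≃+* ZMod 5) (ρ : ResidualGaloisRep k)
    (hC5 : StmtCubic5) (hS3 : StmtS3) (hG5 : StmtGrp5)
    (h : EcbigHyp 5 ρ) (hnu : EcbigNoUnip ρ) : False := by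
  classical
  haveI : Fact (Nat.Prime 5) := ⟨by norm_num⟩
  let b : Module.Basis (Fin 2) k ρ.V := Module.finBasisOfFinrankEq k ρ.V ρ.finrank_eq
  obtain ⟨s, hs⟩ := IsAlgClosed.exists_pow_nat_eq (5 : Qbar) (n := 2) (by norm_num)
  have hs' : s ^ 2 = ((5 : ℤ) : Qbar) := by rw [hs]; norm_num
  have hsurj := (ecbigPhi e ρ b).rangeRestrict_surjective
  have hN := ecbig_unr e ρ b h hnu
  have hker : ∀ H : Subgroup (ecbigPhi e ρ b).range,
      (ecbigPhi e ρ b).ker ≤ H.comap (ecbigPhi e ρ b).rangeRestrict := by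
    intro H σ hσ
    rw [Subgroup.mem_comap]
    have : (ecbigPhi e ρ b).rangeRestrict σ = 1 := by
      apply Subtype.ext
      exact MonoidHom.mem_ker.1 hσ
    rw [this]
    exact H.one_mem
  have hidx : ∀ H : Subgroup (ecbigPhi e ρ b).range,
      (H.comap (ecbigPhi e ρ b).rangeRestrict).index = H.index :=
    fun H => Subgroup.index_comap_of_surjective _ hsurj
  have huniq : ∀ H₁ H₂ : Subgroup (ecbigPhi e ρ b).range, H₁.index = 2 → H₂.index = 2 →
      H₁ = H₂ := fun H₁ H₂ h1 h2 =>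
    ecbig_index_two_unique e ρ b h hnu (by norm_num) (d := 5) (by norm_num) (by norm_num)
      hs' H₁ H₂ h1 h2
  have hcomm := hG5 (ecbigPhi e ρ b).range (ecbigPhi e ρ b).range.subtype
    (Subgroup.subtype_injective _)
    (fun g hg => ecbig_no_order_p e ρ b hnu g hg) huniq
    (fun H hHn => by
      have := hC5 _ hN (H.comap (ecbigPhi e ρ b).rangeRestrict) (hker H) (hHn.comap _)
      rwa [hidx H] at this)
    (fun H hHn hH6 a c => by
      obtain ⟨σ, rfl⟩ := hsurj a
      obtain ⟨τ, rfl⟩ := hsurj c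
      have := hS3 _ hN (H.comap (ecbigPhi e ρ b).rangeRestrict) (hker H) (hHn.comap _)
        (by rw [hidx H, hH6]) σ τ
      rw [Subgroup.mem_comap] at this
      simpa using this)
    ((ecbigPhi e ρ b).rangeRestrict complexConjugation)
    (by rw [← map_mul, complexConjugation_mul_self, map_one])
    (by
      show (ecbigPhi e ρ b complexConjugation).1.det = -1
      rw [ecbigPhi_val, ecbigT_det,
        h.odd complexConjugation complexConjugation_mul_self complexConjugation_ne_one,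
        map_neg, map_one])
    (fun H hH2 => by
      have key := stmtQuad 5 (by norm_num) (by norm_num) 5 (by norm_num) (by norm_num) s hs'
        _ hN (H.comap (ecbigPhi e ρ b).rangeRestrict) (hker H) (by rw [hidx H, hH2])
        complexConjugation
      have := key.2 (ecbig_conj_sqrt_five hs')
      rwa [Subgroup.mem_comap] at this)
  exact ecbig_comm_absurd ρ h (ecbig_two_ne_zero e (by norm_num))
    (ecbig_comm_of_range e ρ b hcomm)

/-- **E-BIG, `p = 5`, commutator form** (given CUBIC5, S3-5, GRP5). -/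
theorem ecbig_exists_comm_five (e : k ≃+* ZMod 5) (ρ : ResidualGaloisRep k)
    (hC5 : StmtCubic5) (hS3 : StmtS3) (hG5 : StmtGrp5)
    (h : EcbigHyp 5 ρ) (H : Subgroup GQ) (hH : H.index = 2) :
    ∃ σ ∈ H, ∃ τ ∈ H, LinearMap.trace k ρ.V (ρ.ρ (σ * τ * σ⁻¹ * τ⁻¹)) ≠ 2 := by
  haveI : Fact (Nat.Prime 5) := ⟨by norm_num⟩
  by_cases hex : ∃ σ₀ : GQ, ρ.ρ σ₀ ≠ 1 ∧ (ρ.ρ σ₀ - 1) * (ρ.ρ σ₀ - 1) = 0
  · obtain ⟨σ₀, h1, hu⟩ := hex
    exact ecbig_exists_comm_of_unipotent (ecbig_two_ne_zero e (by norm_num)) ρ h.irr σ₀ h1 hu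
      H hH
  · exfalso
    refine ecbig_caseB_five e ρ hC5 hS3 hG5 h (fun σ hσ => ?_)
    by_contra hne
    exact hex ⟨σ, hne, hσ⟩

end Five

end Fermat.Agent.EC
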