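/-
E-BIG, piece **TAME-AB** (helper48): tame inertia is commutative in a quotient of order prime
to `p`.

`stmtTameAb : StmtTameAb`.  For `σ, τ` in the inertia group `I_A` (`A` over `p`) and `z ≠ 0`:
`v(σ τ y - τ σ y) < v(y)` (`ecbig_ta_comm_lt`: the symbol `σ ↦ σ z / z mod 𝔪` is multiplicative),
so the commutator `π = σ τ σ⁻¹ τ⁻¹` has trivial symbol at every `z`.  If `π ∉ H` there is `x₀` in
the fixed field of `H` moved by `π`, and `π ^ [G : H]` fixes `x₀`: `S15.tame_N` says that the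
symbol of `π` at `π x₀ - x₀` is not trivial.

Also exported (for CUBIC5, S3-5): `ecbig_ta_isClosed`, `ecbig_ta_exists_moved`.
-/
import Fermat.Agent.EC.Big.Plan
import Fermat.Agent.S15.ToricTameA

set_option autoImplicit false
set_option linter.unusedSectionVars false
set_option linter.style.haveILetI false

namespace Fermat.Agent.EC

open Fermat.Agent.S05 Fermat.Agent.S15

/-- `ℚ̄` -/
local notation "Qbar" => AlgebraicClosure ℚ
/-- `G_ℚ` -/
local notation "GQ" => (AlgebraicClosure ℚ ≃ₐ[ℚ] AlgebraicClosure ℚ)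

/-- `ℚ̄ / ℚ` is algebraic (for the instance found by unification). -/
theorem ecbig_ta_isAlgebraic : Algebra.IsAlgebraic ℚ Qbar := isAlgebraic_rat_qbar

/-- The symbols of two inertia elements commute: `v(σ τ y - τ σ y) < v(y)`. -/
theorem ecbig_ta_comm_lt (A : ValuationSubring Qbar) {σ τ : GQ}
    (hσ : σ ∈ A.inertiaSubgroupIn ℚ) (hτ : τ ∈ A.inertiaSubgroupIn ℚ) {y : Qbar} (hy : y ≠ 0) :
    A.valuation (σ (τ y) - τ (σ y)) < A.valuation y := by
  haveI := ecbig_ta_isAlgebraic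
  have hvy : A.valuation y ≠ 0 := (Valuation.ne_zero_iff _).2 hy
  set s : Qbar := σ y / y with hs
  set t : Qbar := τ y / y with ht
  have hvs : A.valuation s = 1 := by
    rw [hs, map_div₀, inertia_valuation_apply hσ, div_self hvy]
  have hvt : A.valuation t = 1 := by
    rw [ht, map_div₀, inertia_valuation_apply hτ, div_self hvy]
  have hsA : s ∈ A := (A.valuation_le_one_iff _).1 hvs.le
  have htA : t ∈ A := (A.valuation_le_one_iff _).1 hvt.le
  have h1 : σ t - t ∈ A.nonunits := inertia_apply_sub_mem_nonunits hσ htA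
  have h2 : τ s - s ∈ A.nonunits := inertia_apply_sub_mem_nonunits hτ hsA
  rw [ValuationSubring.mem_nonunits_iff] at h1 h2
  have e1 : σ y = y * s := by rw [hs]; field_simp
  have e2 : τ y = y * t := by rw [ht]; field_simp
  have key : σ (τ y) - τ (σ y) = y * (s * (σ t - t) - t * (τ s - s)) := by
    rw [e2, e1, map_mul, map_mul, e1, e2]
    ring
  rw [key, map_mul]
  have h3 : A.valuation (s * (σ t - t) - t * (τ s - s)) < 1 := by
    refine Valuation.map_sub_lt _ ?_ ?_
    · rw [map_mul, hvs, one_mul]; exact h1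
    · rw [map_mul, hvt, one_mul]; exact h2
  calc A.valuation y * A.valuation (s * (σ t - t) - t * (τ s - s))
      < A.valuation y * 1 := mul_lt_mul_of_pos_left h3 (zero_lt_iff.2 hvy)
    _ = A.valuation y := mul_one _

/-- The commutator of two inertia elements has trivial symbol everywhere. -/
theorem ecbig_ta_tameTr_comm (A : ValuationSubring Qbar) {σ τ : GQ}
    (hσ : σ ∈ A.inertiaSubgroupIn ℚ) (hτ : τ ∈ A.inertiaSubgroupIn ℚ) {z : Qbar} (hz : z ≠ 0) :
    tameTr A (σ * τ * σ⁻¹ * τ⁻¹) z := by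
  haveI := ecbig_ta_isAlgebraic
  rw [tameTr_iff A _ hz]
  set y : Qbar := σ⁻¹ (τ⁻¹ z) with hy
  have hy0 : y ≠ 0 := by
    rw [hy, Ne, map_eq_zero, map_eq_zero]
    exact hz
  have e1 : (σ * τ * σ⁻¹ * τ⁻¹) z = σ (τ y) := by
    rw [hy]
    rfl
  have e2 : z = τ (σ y) := by
    rw [hy]
    show z = τ (σ (σ.symm (τ.symm z)))
    rw [AlgEquiv.apply_symm_apply, AlgEquiv.apply_symm_apply]
  have hv : A.valuation z = A.valuation y := by
    conv_lhs => rw [e2]
    rw [inertia_valuation_apply hτ, inertia_valuation_apply hσ]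
  rw [e1, hv]
  conv_lhs => rw [e2]
  exact ecbig_ta_comm_lt A hσ hτ hy0

/-- A subgroup of finite level is closed. -/
theorem ecbig_ta_isClosed (H : Subgroup GQ)
    (hS : ∃ S : Finset Qbar, ∀ σ : GQ, (∀ s ∈ S, σ s = s) → σ ∈ H) :
    IsClosed (H : Set GQ) := by
  obtain ⟨S, hS⟩ := hS
  haveI : IsAlgClosure ℚ Qbar := ⟨inferInstance, AlgebraicClosure.isAlgebraic ℚ⟩
  haveI : FiniteDimensional ℚ (IntermediateField.adjoin ℚ (S : Set Qbar)) :=
    IntermediateField.finiteDimensional_adjoin (fun x _ =>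
      (Algebra.IsIntegral.isIntegral (R := ℚ) x))
  have hle : (IntermediateField.adjoin ℚ (S : Set Qbar)).fixingSubgroup ≤ H := by
    intro σ hσ
    apply hS
    intro s hs
    exact (IntermediateField.mem_fixingSubgroup_iff _ σ).mp hσ s
      (IntermediateField.subset_adjoin ℚ _ (Finset.mem_coe.mpr hs))
  have hopen : IsOpen (H : Set GQ) :=
    Subgroup.isOpen_mono hle (IntermediateField.fixingSubgroup_isOpen _)
  exact Subgroup.isClosed_of_isOpen H hopen

/-- An element outside a subgroup of finite level moves an element of its fixed field. -/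
theorem ecbig_ta_exists_moved (H : Subgroup GQ)
    (hS : ∃ S : Finset Qbar, ∀ σ : GQ, (∀ s ∈ S, σ s = s) → σ ∈ H) {π : GQ} (hπ : π ∉ H) :
    ∃ x₀ : Qbar, (∀ h ∈ H, h x₀ = x₀) ∧ π x₀ ≠ x₀ := by
  haveI : IsAlgClosure ℚ Qbar := ⟨inferInstance, AlgebraicClosure.isAlgebraic ℚ⟩
  haveI : IsGalois ℚ Qbar := inferInstance
  have hgal : (IntermediateField.fixedField H).fixingSubgroup = H :=
    InfiniteGalois.fixingSubgroup_fixedField ⟨H, ecbig_ta_isClosed H hS⟩
  by_contra hcon
  apply hπ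
  rw [← hgal, IntermediateField.mem_fixingSubgroup_iff]
  intro x hx
  by_contra hne
  exact hcon ⟨x, fun h hh => (IntermediateField.mem_fixedField_iff H x).1 hx h hh, hne⟩

/-- **TAME-AB.** -/
theorem stmtTameAb : StmtTameAb := by
  intro p hp A hA H hHn hS hidx σ hσ τ hτ
  haveI := ecbig_ta_isAlgebraic
  haveI := hHn
  by_contra hπ
  obtain ⟨x₀, hfix, hmove⟩ := ecbig_ta_exists_moved H hS hπ
  have hπI : σ * τ * σ⁻¹ * τ⁻¹ ∈ A.inertiaSubgroupIn ℚ :=
    Subgroup.mul_mem _ (Subgroup.mul_mem _ (Subgroup.mul_mem _ hσ hτ) (Subgroup.inv_mem _ hσ))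
      (Subgroup.inv_mem _ hτ)
  have hpow : ((σ * τ * σ⁻¹ * τ⁻¹) ^ H.index) x₀ = x₀ :=
    hfix _ (Subgroup.pow_index_mem H _)
  have hz : (σ * τ * σ⁻¹ * τ⁻¹) x₀ - x₀ ≠ 0 := sub_ne_zero.2 hmove
  exact tame_N A hp hA hπI x₀ H.index hidx hpow hmove (ecbig_ta_tameTr_comm A hσ hτ hz)

end Fermat.Agent.EC
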