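/-
E-BIG, piece **CUBIC5** (helper48): there is no cyclic cubic field unramified outside `5`.

`stmtCubic5 : StmtCubic5`.  Let `H ⊇ N` be normal of index `3`.
(a) Every inertia group `I_A`, `A | 5`, lies in `H`: if `π ∈ I_A ∖ H`, take `x₀` in the fixed
    field of `H` moved by `π`, `z = π x₀ - x₀`, `u = π z / z`.  Then `u · π u · π² u = 1`, so
    `u³ ≡ 1 mod 𝔪_A`; the trace `T = u + π u + π² u` is rational and `≡ 3 u`, so `u ≡ k mod 𝔪_A`
    for an integer `k`, `k³ ≡ 1 mod 5`, `k ≡ 1 mod 5`: the symbol of `π` at `z` is trivial,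
    against `S15.tame_N`.
(b) Minkowski (`S13.minkowski_glue`): `H = ⊤`.
-/
import Fermat.Agent.EC.Big.TameAb
import Fermat.Agent.S13.Minkowski

set_option autoImplicit false
set_option linter.unusedSectionVars false
set_option linter.style.haveILetI false

namespace Fermat.Agent.EC

open Fermat.Agent.S05 Fermat.Agent.S15

/-- `ℚ̄` -/
local notation "Qbar" => AlgebraicClosure ℚ
/-- `G_ℚ` -/
local notation "GQ" => (AlgebraicClosure ℚ ≃ₐ[ℚ] AlgebraicClosure ℚ)

/-- An integer in the maximal ideal of a place over `p` is divisible by `p`. -/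
theorem ecbig_c5_dvd_of_mem_nonunits (A : ValuationSubring Qbar) {p : ℕ} (hp : p.Prime)
    (hA : A.LiesOverPrime p) (n : ℤ) (hn : ((n : ℤ) : Qbar) ∈ A.nonunits) : (p : ℤ) ∣ n := by
  by_contra h
  have h1 := tame_val_int A hp hA n h
  rw [ValuationSubring.mem_nonunits_iff, h1] at hn
  exact lt_irrefl _ hn

/-- A multiple of `p` lies in the maximal ideal of a place over `p`. -/
theorem ecbig_c5_mem_nonunits_of_dvd (A : ValuationSubring Qbar) {p : ℕ}
    (hA : A.LiesOverPrime p) (n : ℤ) (hn : (p : ℤ) ∣ n) : ((n : ℤ) : Qbar) ∈ A.nonunits := by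
  obtain ⟨c, rfl⟩ := hn
  have h1 : ((p : ℕ) : Qbar) ∈ A.nonunits := hA
  rw [ValuationSubring.mem_nonunits_iff] at h1 ⊢
  push_cast
  rw [map_mul]
  have hc : A.valuation ((c : ℤ) : Qbar) ≤ 1 := (A.valuation_le_one_iff _).2 (intCast_mem A c)
  exact mul_lt_one_of_nonneg_of_lt_one_left zero_le h1 hc

/-- the maximal ideal is an ideal: `a ∈ A`, `b ∈ 𝔪` ⇒ `a b ∈ 𝔪` -/
theorem ecbig_c5_mul_mem (A : ValuationSubring Qbar) {a b : Qbar} (ha : a ∈ A)
    (hb : b ∈ A.nonunits) : a * b ∈ A.nonunits := by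
  rw [ValuationSubring.mem_nonunits_iff] at hb ⊢
  rw [map_mul]
  exact mul_lt_one_of_nonneg_of_lt_one_right ((A.valuation_le_one_iff _).2 ha) zero_le hb

theorem ecbig_c5_add_mem (A : ValuationSubring Qbar) {a b : Qbar} (ha : a ∈ A.nonunits)
    (hb : b ∈ A.nonunits) : a + b ∈ A.nonunits := by
  rw [ValuationSubring.mem_nonunits_iff] at ha hb ⊢
  exact Valuation.map_add_lt _ ha hb

theorem ecbig_c5_sub_mem (A : ValuationSubring Qbar) {a b : Qbar} (ha : a ∈ A.nonunits)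
    (hb : b ∈ A.nonunits) : a - b ∈ A.nonunits := by
  rw [ValuationSubring.mem_nonunits_iff] at ha hb ⊢
  exact Valuation.map_sub_lt _ ha hb

theorem ecbig_c5_neg_mem (A : ValuationSubring Qbar) {a : Qbar} (ha : a ∈ A.nonunits) :
    -a ∈ A.nonunits := by
  rw [ValuationSubring.mem_nonunits_iff] at ha ⊢
  rwa [Valuation.map_neg]

theorem ecbig_c5_mem_of_nonunits (A : ValuationSubring Qbar) {a : Qbar} (ha : a ∈ A.nonunits) :
    a ∈ A := by
  rw [ValuationSubring.mem_nonunits_iff] at ha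
  exact (A.valuation_le_one_iff _).1 ha.le

/-- A rational number in a place over `p` is congruent to an integer. -/
theorem ecbig_c5_rat_residue (A : ValuationSubring Qbar) {p : ℕ} (hp : p.Prime)
    (hA : A.LiesOverPrime p) (r : ℚ) (hr : algebraMap ℚ Qbar r ∈ A) :
    ∃ m : ℤ, algebraMap ℚ Qbar r - (m : Qbar) ∈ A.nonunits := by
  have hpA : ((p : ℕ) : Qbar) ∈ A.nonunits := hA
  have hden0 : ((r.den : ℕ) : Qbar) ≠ 0 := by exact_mod_cast r.den_ne_zero
  have hrd : algebraMap ℚ Qbar r * ((r.den : ℕ) : Qbar) = ((r.num : ℤ) : Qbar) := by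
    have h0 : algebraMap ℚ Qbar r * algebraMap ℚ Qbar (r.den : ℚ) = algebraMap ℚ Qbar (r.num : ℚ) := by
      rw [← map_mul, Rat.mul_den_eq_num]
    rw [map_natCast, map_intCast] at h0
    exact h0
  -- `p ∤ den`
  have hnd : ¬ (p : ℤ) ∣ (r.den : ℤ) := by
    intro hd
    have hnum : ¬ (p : ℤ) ∣ r.num := by
      intro hn
      have h1 : (p : ℤ).natAbs ∣ r.num.natAbs := Int.natAbs_dvd_natAbs.2 hn
      have h2 : p ∣ r.den := by exact_mod_cast hd
      have h3 : p ∣ Nat.gcd r.num.natAbs r.den := Nat.dvd_gcd (by simpa using h1) h2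
      have h4 : Nat.gcd r.num.natAbs r.den = 1 := r.reduced
      rw [h4] at h3
      exact hp.one_lt.ne' (Nat.dvd_one.1 h3)
    have hv1 : A.valuation ((r.num : ℤ) : Qbar) = 1 := tame_val_int A hp hA r.num hnum
    have hv2 : ((r.den : ℕ) : Qbar) ∈ A.nonunits := by
      have := ecbig_c5_mem_nonunits_of_dvd A hA (r.den : ℤ) hd
      simpa using this
    have hv3 := ecbig_c5_mul_mem A hr hv2
    rw [hrd, ValuationSubring.mem_nonunits_iff, hv1] at hv3
    exact lt_irrefl _ hv3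
  have hcop : IsCoprime (r.den : ℤ) (p : ℤ) := by
    have hp' : Prime (p : ℤ) := Nat.prime_iff_prime_int.1 hp
    exact ((Prime.coprime_iff_not_dvd hp').2 hnd).symm
  obtain ⟨b, c, hbc⟩ := hcop
  refine ⟨r.num * b, ?_⟩
  have h1 : (b : Qbar) * ((r.den : ℕ) : Qbar) + (c : Qbar) * ((p : ℕ) : Qbar) = 1 := by
    have := congrArg (fun t : ℤ => (t : Qbar)) hbc
    push_cast at this
    exact this
  have h2 : algebraMap ℚ Qbar r - ((r.num * b : ℤ) : Qbar) =
      algebraMap ℚ Qbar r * ((c : Qbar) * ((p : ℕ) : Qbar)) := by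
    push_cast
    rw [← hrd]
    linear_combination (-(algebraMap ℚ Qbar r)) * h1
  rw [h2]
  exact ecbig_c5_mul_mem A hr (ecbig_c5_mul_mem A (intCast_mem A c) hpA)

/-- cubes modulo `5` -/
theorem ecbig_c5_cube (k : ℤ) (h : (5 : ℤ) ∣ k ^ 3 - 1) : (5 : ℤ) ∣ k - 1 := by
  have h1 : ((k ^ 3 - 1 : ℤ) : ZMod 5) = 0 := (ZMod.intCast_zmod_eq_zero_iff_dvd _ 5).2 h
  have h2 : ∀ x : ZMod 5, x ^ 3 - 1 = 0 → x - 1 = 0 := by decide
  have h3 : ((k - 1 : ℤ) : ZMod 5) = 0 := by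
    push_cast at h1 ⊢
    exact h2 _ h1
  exact (ZMod.intCast_zmod_eq_zero_iff_dvd _ 5).1 h3

/-- An element fixed by `G_ℚ` is rational. -/
theorem ecbig_c5_rat_of_fixed (x : Qbar) (h : ∀ g : GQ, g x = x) :
    ∃ r : ℚ, algebraMap ℚ Qbar r = x := by
  haveI : IsAlgClosure ℚ Qbar := ⟨inferInstance, AlgebraicClosure.isAlgebraic ℚ⟩
  haveI : IsGalois ℚ Qbar := inferInstance
  exact (InfiniteGalois.mem_range_algebraMap_iff_fixed x).2 h

/-- **(a)**: for a normal subgroup `H` of index `3` of finite level, the inertia groups over `5`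
lie in `H`. -/
theorem ecbig_c5_inertia_le (H : Subgroup GQ) (hHn : H.Normal)
    (hS : ∃ S : Finset Qbar, ∀ σ : GQ, (∀ s ∈ S, σ s = s) → σ ∈ H) (hidx : H.index = 3)
    (A : ValuationSubring Qbar) (hA : A.LiesOverPrime 5) : A.inertiaSubgroupIn ℚ ≤ H := by
  haveI := ecbig_ta_isAlgebraic
  haveI := hHn
  have h5 : Nat.Prime 5 := by norm_num
  intro π hπ
  by_contra hπH
  obtain ⟨x₀, hfix, hmove⟩ := ecbig_ta_exists_moved H hS hπH
  have hπ3 : π ^ 3 ∈ H := hidx ▸ Subgroup.pow_index_mem H π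
  -- the fixed field is stable
  have hstab : ∀ (g : GQ) (x : Qbar), (∀ h ∈ H, h x = x) → ∀ h ∈ H, h (g x) = g x := by
    intro g x hx h hh
    have h1 : g⁻¹ * h * g ∈ H := Subgroup.Normal.conj_mem' inferInstance h hh g
    have h2 := hx _ h1
    have h3 : (g⁻¹ * h * g) x = g⁻¹ (h (g x)) := rfl
    rw [h3] at h2
    have h4 := congrArg g h2
    rwa [show g (g⁻¹ (h (g x))) = h (g x) from g.apply_symm_apply _] at h4
  set z : Qbar := π x₀ - x₀ with hz
  have hz0 : z ≠ 0 := sub_ne_zero.2 hmove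
  have hzfix : ∀ h ∈ H, h z = z := by
    intro h hh
    rw [hz, map_sub, hstab π x₀ hfix h hh, hfix h hh]
  have hpow : (π ^ 3) x₀ = x₀ := hfix _ hπ3
  have hπ3z : π (π (π z)) = z := hzfix _ hπ3
  -- the symbol
  set u : Qbar := π z / z with hu
  have hπz0 : π z ≠ 0 := by rw [Ne, map_eq_zero]; exact hz0
  have hππz0 : π (π z) ≠ 0 := by rw [Ne, map_eq_zero]; exact hπz0
  have hvu : A.valuation u = 1 := by
    rw [hu, map_div₀, inertia_valuation_apply hπ, div_self ((Valuation.ne_zero_iff _).2 hz0)]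
  have huA : u ∈ A := (A.valuation_le_one_iff _).1 hvu.le
  have hπu : π u = π (π z) / π z := by rw [hu, map_div₀]
  have hππu : π (π u) = z / π (π z) := by rw [hπu, map_div₀, hπ3z]
  have hπuA : π u ∈ A := (inertia_apply_mem_iff hπ u).2 huA
  have hππuA : π (π u) ∈ A := (inertia_apply_mem_iff hπ _).2 hπuA
  have hprod : u * π u * π (π u) = 1 := by
    rw [hππu, hπu, hu]
    field_simp
  have hd1 : π u - u ∈ A.nonunits := inertia_apply_sub_mem_nonunits hπ huA
  have hd2 : π (π u) - u ∈ A.nonunits := by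
    have h1 : π (π u) - π u ∈ A.nonunits := inertia_apply_sub_mem_nonunits hπ hπuA
    have h2 : π (π u) - u = (π (π u) - π u) + (π u - u) := by ring
    rw [h2]
    exact ecbig_c5_add_mem A h1 hd1
  -- `u³ ≡ 1`
  have hcube : u ^ 3 - 1 ∈ A.nonunits := by
    have h1 : u ^ 3 - 1 = -(u * (u * (π (π u) - u) + π (π u) * (π u - u))) := by
      rw [← hprod]
      ring
    rw [h1]
    exact ecbig_c5_neg_mem A (ecbig_c5_mul_mem A huA
      (ecbig_c5_add_mem A (ecbig_c5_mul_mem A huA hd2) (ecbig_c5_mul_mem A hππuA hd1)))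
  -- the trace
  set T : Qbar := u + π u + π (π u) with hT
  have hufix : ∀ h ∈ H, h u = u := by
    intro h hh
    rw [hu, map_div₀, hstab π z hzfix h hh, hzfix h hh]
  have hTfixH : ∀ h ∈ H, h T = T := by
    intro h hh
    rw [hT, map_add, map_add, hufix h hh, hstab π u hufix h hh,
      hstab π (π u) (hstab π u hufix) h hh]
  have hπ3u : π (π (π u)) = u := hufix _ hπ3
  have hTfixπ : π T = T := by
    rw [hT, map_add, map_add, hπ3u]
    ring
  have hTfixpow : ∀ k : ℤ, (π ^ k) T = T := by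
    have hmem : π ∈ MulAction.stabilizer GQ T := MulAction.mem_stabilizer_iff.2 hTfixπ
    intro k
    exact MulAction.mem_stabilizer_iff.1 (Subgroup.zpow_mem _ hmem k)
  have hTfix : ∀ g : GQ, g T = T := by
    intro g
    haveI : Fact (Nat.Prime 3) := ⟨by norm_num⟩
    have hcard : Nat.card (GQ ⧸ H) = 3 := hidx
    have hne : (QuotientGroup.mk π : GQ ⧸ H) ≠ 1 := by
      rw [Ne, QuotientGroup.eq_one_iff]
      exact hπH
    have hmem : (QuotientGroup.mk g : GQ ⧸ H) ∈ Subgroup.zpowers (QuotientGroup.mk π : GQ ⧸ H) :=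
      mem_zpowers_of_prime_card hcard hne
    obtain ⟨k, hk⟩ := Subgroup.mem_zpowers_iff.1 hmem
    have hk' : (QuotientGroup.mk (π ^ k) : GQ ⧸ H) = QuotientGroup.mk g := by
      rw [QuotientGroup.mk_zpow]
      exact hk
    have hh : (π ^ k)⁻¹ * g ∈ H := QuotientGroup.eq.1 hk'
    have e : g = π ^ k * ((π ^ k)⁻¹ * g) := by group
    rw [e]
    show (π ^ k) (((π ^ k)⁻¹ * g) T) = T
    rw [hTfixH _ hh, hTfixpow k]
  obtain ⟨r, hr⟩ := ecbig_c5_rat_of_fixed T hTfix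
  have hTA : T ∈ A := A.add_mem _ _ (A.add_mem _ _ huA hπuA) hππuA
  obtain ⟨m, hm⟩ := ecbig_c5_rat_residue A h5 hA r (hr ▸ hTA)
  rw [hr] at hm
  -- `3 u ≡ m`
  have h3u : 3 * u - (m : Qbar) ∈ A.nonunits := by
    have h1 : 3 * u - (m : Qbar) = (T - m) - ((π u - u) + (π (π u) - u)) := by
      rw [hT]; ring
    rw [h1]
    exact ecbig_c5_sub_mem A hm (ecbig_c5_add_mem A hd1 hd2)
  have h5A : ((5 : ℕ) : Qbar) ∈ A.nonunits := hA
  -- `u ≡ k := 2 m`
  have huk : u - ((2 * m : ℤ) : Qbar) ∈ A.nonunits := by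
    have h1 : u - ((2 * m : ℤ) : Qbar) = 2 * (3 * u - m) - u * ((5 : ℕ) : Qbar) := by
      push_cast; ring
    rw [h1]
    refine ecbig_c5_sub_mem A (ecbig_c5_mul_mem A ?_ h3u) (ecbig_c5_mul_mem A huA h5A)
    have : (2 : Qbar) = ((2 : ℤ) : Qbar) := by norm_cast
    rw [this]
    exact intCast_mem A 2
  have hkA : (((2 * m : ℤ) : ℤ) : Qbar) ∈ A := intCast_mem A _
  have hk3 : (((2 * m) ^ 3 - 1 : ℤ) : Qbar) ∈ A.nonunits := by
    have h1 : (((2 * m) ^ 3 - 1 : ℤ) : Qbar) =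
        (u ^ 3 - 1) - (u - ((2 * m : ℤ) : Qbar)) *
          (u ^ 2 + u * ((2 * m : ℤ) : Qbar) + ((2 * m : ℤ) : Qbar) ^ 2) := by
      push_cast; ring
    rw [h1]
    refine ecbig_c5_sub_mem A hcube ?_
    rw [mul_comm]
    refine ecbig_c5_mul_mem A ?_ huk
    exact A.add_mem _ _ (A.add_mem _ _ (pow_mem huA 2) (A.mul_mem _ _ huA hkA)) (pow_mem hkA 2)
  have hdvd : (5 : ℤ) ∣ (2 * m) ^ 3 - 1 := by
    have := ecbig_c5_dvd_of_mem_nonunits A h5 hA _ hk3
    exact_mod_cast this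
  have hdvd1 : (5 : ℤ) ∣ 2 * m - 1 := ecbig_c5_cube _ hdvd
  have hk1 : (((2 * m - 1 : ℤ) : ℤ) : Qbar) ∈ A.nonunits :=
    ecbig_c5_mem_nonunits_of_dvd A hA _ (by exact_mod_cast hdvd1)
  have hu1 : u - 1 ∈ A.nonunits := by
    have h1 : u - 1 = (u - ((2 * m : ℤ) : Qbar)) + (((2 * m - 1 : ℤ) : ℤ) : Qbar) := by
      push_cast; ring
    rw [h1]
    exact ecbig_c5_add_mem A huk hk1
  -- contradiction with (N)
  have hpow' : (π ^ 3) x₀ = x₀ := hpow
  exact tame_N A h5 hA hπ x₀ 3 (by norm_num) hpow' hmove hu1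

/-- **CUBIC5.** -/
theorem stmtCubic5 : StmtCubic5 := by
  intro N hN H hNH hHn hidx
  have hS : ∃ S : Finset Qbar, ∀ σ : GQ, (∀ s ∈ S, σ s = s) → σ ∈ H := by
    obtain ⟨S, hS⟩ := hN.level
    exact ⟨S, fun σ hσ => hNH (hS σ hσ)⟩
  have htop : H = ⊤ := by
    refine Fermat.Agent.S13.Minkowski.minkowski_glue H hHn hS ?_
    intro q hq
    obtain ⟨A, hA⟩ := Fermat.Agent.Common.exists_liesOverPrime q hq
    refine ⟨A, hA, ?_⟩
    by_cases hq5 : q = 5
    · subst hq5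
      exact ecbig_c5_inertia_le H hHn hS hidx A hA
    · exact le_trans (hN.unr q hq hq5 A hA) hNH
  rw [htop, Subgroup.index_top] at hidx
  exact absurd hidx (by norm_num)

end Fermat.Agent.EC
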