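import Mathlib
import Fermat.Agent.EC.Big.Asm
import Fermat.Agent.EC.TateResOdd
import Fermat.Agent.RED.UnipTwoTate

/-!
# E-BIG: final statements for the Tate module of a semistable curve

`W : WeierstrassCurve ℤ` semistable, `Δ ≠ 0`, `E[p]` irreducible, `ρbar := (tateRepInt W hΔ p).residual`.

* `ecbig_tateResInt_hyp` : the standing hypotheses `EcbigHyp p ρbar` (any odd `p`);
* `ecbig_tateResInt_comm_three`, `ecbig_tateResInt_hTW_three` : `p = 3`, unconditional:
  every subgroup `H` of index two contains `σ, τ` with `tr ρbar(σ τ σ⁻¹ τ⁻¹) ≠ 2`, hence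
  `ρbar|_H` is absolutely irreducible (shape of `hTW` of S56);
* `ecbig_tateResInt_comm_five`, `ecbig_tateResInt_hTW_five` : `p = 5`, from the pieces S3-5 and
  GRP5 (CUBIC5 is proved);
* `ecbig_comm_baseChange`, `ecbig_hTW_baseChange` : the same for every base change
  `ρbar.baseChange k'` (the residual representation over the residue field of a bigger `𝒪`).
-/

set_option autoImplicit false
set_option linter.style.haveILetI false

namespace Fermat.Agent.EC

open Polynomial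
open scoped TensorProduct

/-- `ℚ̄` -/
local notation "Qbar" => AlgebraicClosure ℚ
/-- `G_ℚ` -/
local notation "GQ" => (AlgebraicClosure ℚ ≃ₐ[ℚ] AlgebraicClosure ℚ)

section BaseChange

variable {k : Type} [Field k] (ρ : ResidualGaloisRep k) (k' : Type) [Field k'] [Algebra k k']

/-- traces of a base change -/
theorem ecbig_trace_baseChange (σ : GQ) :
    LinearMap.trace k' (ρ.baseChange k').V ((ρ.baseChange k').ρ σ)
      = algebraMap k k' (LinearMap.trace k ρ.V (ρ.ρ σ)) := by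
  show LinearMap.trace k' _ ((ρ.ρ σ).baseChange k') = _
  rw [LinearMap.trace_baseChange]

/-- the commutator condition passes to base changes -/
theorem ecbig_comm_baseChange {σ τ : GQ}
    (htr : LinearMap.trace k ρ.V (ρ.ρ (σ * τ * σ⁻¹ * τ⁻¹)) ≠ 2) :
    LinearMap.trace k' (ρ.baseChange k').V ((ρ.baseChange k').ρ (σ * τ * σ⁻¹ * τ⁻¹)) ≠ 2 := by
  rw [ecbig_trace_baseChange]
  intro h
  apply htr
  apply (algebraMap k k').injective
  rw [h, map_ofNat]

/-- the `hTW` shape for a base change `ρ.baseChange k'` -/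
theorem ecbig_hTW_baseChange (H : Subgroup GQ) {σ τ : GQ} (hσ : σ ∈ H) (hτ : τ ∈ H)
    (htr : LinearMap.trace k ρ.V (ρ.ρ (σ * τ * σ⁻¹ * τ⁻¹)) ≠ 2)
    (K : Type) [Field K] [Algebra k' K]
    (V : Submodule K ((ρ.baseChange k').baseChange K).V)
    (hV : ∀ g ∈ H, ∀ x ∈ V, ((ρ.baseChange k').baseChange K).ρ g x ∈ V) : V = ⊥ ∨ V = ⊤ :=
  ecbig_stable_eq_bot_or_top (ρ.baseChange k') K H hσ hτ (ecbig_comm_baseChange ρ k' htr) V hV

end BaseChange

section Tate

variable (W : WeierstrassCurve ℤ) (hΔ : W.Δ ≠ 0) (p : ℕ) [hp : Fact p.Prime]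

/-- the standing hypotheses for the residual representation of the Tate module of a
semistable curve with `E[p]` irreducible, `p` odd -/
theorem ecbig_tateResInt_hyp (hp2 : p ≠ 2) (hss : W.IsSemistableModel)
    (hirr : W.ModRepIsIrreducible p) : EcbigHyp p (tateRepInt W hΔ p).residual := by
  refine ⟨tateResInt_isIrreducible W hΔ p hirr, tateResInt_isOdd W hΔ p hirr, ?_⟩
  intro q hq hqp A hA σ hσ
  have h1 : LinearMap.charpoly ((tateRepInt W hΔ p).ρ σ) = (X - 1) ^ 2 :=
    Fermat.Agent.RED.tateRepInt_isUnipotentOnInertiaAt_of_semistable_all W hΔ hss p hp2 hq hqp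
      A hA σ hσ
  have h2 : LinearMap.charpoly ((tateRepInt W hΔ p).residual.ρ σ) = (X - 1) ^ 2 := by
    show LinearMap.charpoly
      (((tateRepInt W hΔ p).ρ σ).baseChange (IsLocalRing.ResidueField ℤ_[p])) = _
    rw [LinearMap.charpoly_baseChange, h1]
    simp
  have h3 := LinearMap.aeval_self_charpoly ((tateRepInt W hΔ p).residual.ρ σ)
  rw [h2] at h3
  simpa [pow_two] using h3

/-- **E-BIG, `p = 3`, commutator form**, for the Tate module. -/
theorem ecbig_tateResInt_comm_three (hss : W.IsSemistableModel)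
    (hirr : W.ModRepIsIrreducible 3) (H : Subgroup GQ) (hH : H.index = 2) :
    ∃ σ ∈ H, ∃ τ ∈ H, LinearMap.trace _ (tateRepInt W hΔ 3).residual.V
      ((tateRepInt W hΔ 3).residual.ρ (σ * τ * σ⁻¹ * τ⁻¹)) ≠ 2 :=
  ecbig_exists_comm_three (PadicInt.residueField (p := 3)) _
    (ecbig_tateResInt_hyp W hΔ 3 (by norm_num) hss hirr) H hH

/-- **E-BIG, `p = 3`**: `hTW` of S56 for the residual representation of the Tate module of a
semistable curve with `E[3]` irreducible. -/
theorem ecbig_tateResInt_hTW_three (hss : W.IsSemistableModel)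
    (hirr : W.ModRepIsIrreducible 3)
    (K : Type) [Field K] [Algebra (IsLocalRing.ResidueField ℤ_[3]) K]
    (H : Subgroup GQ) (hH : H.index = 2)
    (V : Submodule K ((tateRepInt W hΔ 3).residual.baseChange K).V)
    (hV : ∀ σ ∈ H, ∀ x ∈ V, ((tateRepInt W hΔ 3).residual.baseChange K).ρ σ x ∈ V) :
    V = ⊥ ∨ V = ⊤ := by
  obtain ⟨σ, hσ, τ, hτ, htr⟩ := ecbig_tateResInt_comm_three W hΔ hss hirr H hH
  exact ecbig_stable_eq_bot_or_top _ K H hσ hτ htr V hV

/-- **E-BIG, `p = 5`, commutator form**, for the Tate module (from S3-5 and GRP5). -/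
theorem ecbig_tateResInt_comm_five_of (hC5 : StmtCubic5) (hS3 : StmtS3) (hG5 : StmtGrp5)
    [Fact (Nat.Prime 5)] (hss : W.IsSemistableModel)
    (hirr : W.ModRepIsIrreducible 5) (H : Subgroup GQ) (hH : H.index = 2) :
    ∃ σ ∈ H, ∃ τ ∈ H, LinearMap.trace _ (tateRepInt W hΔ 5).residual.V
      ((tateRepInt W hΔ 5).residual.ρ (σ * τ * σ⁻¹ * τ⁻¹)) ≠ 2 :=
  ecbig_exists_comm_five (PadicInt.residueField (p := 5)) _ hC5 hS3 hG5
    (ecbig_tateResInt_hyp W hΔ 5 (by norm_num) hss hirr) H hH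

/-- **E-BIG (A)**, commutator form: semistable, `E[p]` irreducible, `p` odd, and `ρbar`
RAMIFIED at some prime `q ≠ p` (Frey curve: `q = 2`). -/
theorem ecbig_tateResInt_comm_of_ramified (hp2 : p ≠ 2) (hss : W.IsSemistableModel)
    (hirr : W.ModRepIsIrreducible p) {q : ℕ} (hq : q.Prime) (hqp : q ≠ p)
    (hram : ¬ (tateRepInt W hΔ p).residual.IsUnramifiedAt q)
    (H : Subgroup GQ) (hH : H.index = 2) :
    ∃ σ ∈ H, ∃ τ ∈ H, LinearMap.trace _ (tateRepInt W hΔ p).residual.V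
      ((tateRepInt W hΔ p).residual.ρ (σ * τ * σ⁻¹ * τ⁻¹)) ≠ 2 := by
  have h := ecbig_tateResInt_hyp W hΔ p hp2 hss hirr
  unfold ResidualGaloisRep.IsUnramifiedAt at hram
  rw [not_forall] at hram
  obtain ⟨A, hA⟩ := hram
  rw [Classical.not_imp] at hA
  obtain ⟨hA, hA2⟩ := hA
  rw [not_forall] at hA2
  obtain ⟨σ₀, hσ₀⟩ := hA2
  rw [Classical.not_imp] at hσ₀
  exact ecbig_exists_comm_of_unipotent
    (ecbig_two_ne_zero (PadicInt.residueField (p := p)) hp2) _ h.irr σ₀ hσ₀.2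
    (h.unip q hq hqp A hA σ₀ hσ₀.1) H hH

/-- **E-BIG (A)**, `hTW` shape. -/
theorem ecbig_tateResInt_hTW_of_ramified (hp2 : p ≠ 2) (hss : W.IsSemistableModel)
    (hirr : W.ModRepIsIrreducible p) {q : ℕ} (hq : q.Prime) (hqp : q ≠ p)
    (hram : ¬ (tateRepInt W hΔ p).residual.IsUnramifiedAt q)
    (K : Type) [Field K] [Algebra (IsLocalRing.ResidueField ℤ_[p]) K]
    (H : Subgroup GQ) (hH : H.index = 2)
    (V : Submodule K ((tateRepInt W hΔ p).residual.baseChange K).V)
    (hV : ∀ σ ∈ H, ∀ x ∈ V, ((tateRepInt W hΔ p).residual.baseChange K).ρ σ x ∈ V) :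
    V = ⊥ ∨ V = ⊤ := by
  obtain ⟨σ, hσ, τ, hτ, htr⟩ :=
    ecbig_tateResInt_comm_of_ramified W hΔ p hp2 hss hirr hq hqp hram H hH
  exact ecbig_stable_eq_bot_or_top _ K H hσ hτ htr V hV

end Tate

end Fermat.Agent.EC
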