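import Mathlib
import Fermat.Agent.EC.Big.TwoGroup

/-!
# E-BIG, piece GRP5 (helper57): `stmtGrp5 : StmtGrp5`

A subgroup `G` of `GL₂(𝔽₅)` without elements of order `5` has order dividing `96 = 2⁵ · 3`.
If `3 ∣ |G|`, a Sylow `2`-subgroup `Q` has index `3`; its normal core `K` has index `3` or `6`;
index `3` is excluded, and index `6` gives (quotient commutative) that `Q` is normal of index `3`:
excluded.  So `G` is a `2`-group with at most one subgroup of index two: commutative (TWOGRP).
(The involution `c` is not needed.)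
-/

set_option autoImplicit false
set_option linter.style.haveILetI false

namespace Fermat.Agent.EC

open Subgroup

/-- a finite group of order dividing `96`, without normal subgroups of index `3` and whose
quotients of order `6` are commutative, has order prime to `3`. -/
theorem ecbig_g5_not_three_dvd (G : Type) [Group G] [Finite G] (hdvd : Nat.card G ∣ 96)
    (h3 : ∀ H : Subgroup G, H.Normal → H.index ≠ 3)
    (h6 : ∀ H : Subgroup G, H.Normal → H.index = 6 → ∀ a b : G, a * b * a⁻¹ * b⁻¹ ∈ H) :
    ¬ 3 ∣ Nat.card G := by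
  intro hdiv
  haveI : Fact (Nat.Prime 2) := ⟨Nat.prime_two⟩
  let Q : Sylow 2 G := default
  -- the index of `Q` is `3`
  have h2 : ¬ 2 ∣ (Q : Subgroup G).index := Q.not_dvd_index
  have hidx96 : (Q : Subgroup G).index ∣ 96 := ((Q : Subgroup G).index_dvd_card).trans hdvd
  have hidx3 : (Q : Subgroup G).index ∣ 3 := by
    have hcop : Nat.Coprime (Q : Subgroup G).index 32 := by
      have : Nat.Coprime (Q : Subgroup G).index (2 ^ 5) :=
        Nat.Coprime.pow_right 5
          (Nat.coprime_comm.1 ((Nat.Prime.coprime_iff_not_dvd Nat.prime_two).2 h2))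
      simpa using this
    have h : (Q : Subgroup G).index ∣ 32 * 3 := hidx96
    exact hcop.dvd_of_dvd_mul_left h
  have hQidx : (Q : Subgroup G).index = 3 := by
    rcases (Nat.dvd_prime Nat.prime_three).1 hidx3 with h | h
    · exfalso
      obtain ⟨n, hn⟩ := IsPGroup.iff_card.1 Q.2
      have hcard := (Q : Subgroup G).card_mul_index
      rw [h, mul_one] at hcard
      have hn' : Nat.card G = 2 ^ n := by rw [← hcard]; exact hn
      rw [hn'] at hdiv
      have := Nat.Prime.dvd_of_dvd_pow Nat.prime_three hdiv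
      omega
    · exact h
  -- the normal core
  have hKn : ((Q : Subgroup G).normalCore).Normal := Subgroup.normalCore_normal _
  have hKle : (Q : Subgroup G).normalCore ≤ Q := Subgroup.normalCore_le _
  have hK6 : ((Q : Subgroup G).normalCore).index ∣ 6 := by
    have h : ((Q : Subgroup G).normalCore).index ∣ ((Q : Subgroup G).index).factorial := by
      rw [Subgroup.normalCore_eq_ker, Subgroup.index_ker, Subgroup.index_eq_card,
        ← Nat.card_perm]
      exact Subgroup.card_subgroup_dvd_card _
    rw [hQidx] at h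
    simpa [Nat.factorial] using h
  have h3K : 3 ∣ ((Q : Subgroup G).normalCore).index := by
    rw [← hQidx]
    exact Subgroup.index_dvd_of_le hKle
  have hcases : ((Q : Subgroup G).normalCore).index = 3 ∨
      ((Q : Subgroup G).normalCore).index = 6 := by
    obtain ⟨k, hk⟩ := h3K
    have hk2 : k ∣ 2 := by
      rw [hk] at hK6
      exact Nat.dvd_of_mul_dvd_mul_left (by norm_num : 0 < 3) (by simpa using hK6)
    rcases (Nat.dvd_prime Nat.prime_two).1 hk2 with h | h
    · left; rw [hk, h]
    · right; rw [hk, h]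
  rcases hcases with h | h
  · exact h3 _ hKn h
  · have hQn : (Q : Subgroup G).Normal := by
      constructor
      intro q hq g
      have h1 := h6 _ hKn h g q
      have h2 : g * q * g⁻¹ = (g * q * g⁻¹ * q⁻¹) * q := by group
      rw [h2]
      exact mul_mem (hKle h1) hq
    exact h3 _ hQn hQidx

/-- **GRP5**. -/
theorem stmtGrp5 : StmtGrp5 := by
  intro G _ _ φ hφ h5 huniq h3 h6 c _ _ _
  have hdvd : Nat.card G ∣ 480 := ecbig_card_GL5 ▸ Subgroup.card_dvd_of_injective φ hφ
  have h5' : ¬ 5 ∣ Nat.card G := by
    intro h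
    haveI : Fact (Nat.Prime 5) := ⟨by norm_num⟩
    obtain ⟨x, hx⟩ := exists_prime_orderOf_dvd_card' (G := G) 5 h
    have h1 : x ^ 5 = 1 := by rw [← hx]; exact pow_orderOf_eq_one x
    have h2 := h5 x h1
    rw [h2, orderOf_one] at hx
    omega
  have h96 : Nat.card G ∣ 96 := by
    have hcop : Nat.Coprime (Nat.card G) 5 :=
      Nat.coprime_comm.1 ((Nat.Prime.coprime_iff_not_dvd (by norm_num)).2 h5')
    have : Nat.card G ∣ 96 * 5 := hdvd
    exact hcop.dvd_of_dvd_mul_right this
  have h3' : ¬ 3 ∣ Nat.card G := ecbig_g5_not_three_dvd G h96 h3 h6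
  have h32 : Nat.card G ∣ 32 := by
    have hcop : Nat.Coprime (Nat.card G) 3 :=
      Nat.coprime_comm.1 ((Nat.Prime.coprime_iff_not_dvd Nat.prime_three).2 h3')
    have : Nat.card G ∣ 32 * 3 := h96
    exact hcop.dvd_of_dvd_mul_right this
  apply stmtTwoGroup G ?_ huniq
  obtain ⟨m, _, hm⟩ := (Nat.dvd_prime_pow Nat.prime_two (m := 5)).1 h32
  exact ⟨m, hm⟩

end Fermat.Agent.EC
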