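import Mathlib
import Fermat.Agent.EC.Big.Plan

/-!
# E-BIG, piece S3-5: interface of the two halves

`StmtS3` (no `S₃`-extension of `ℚ` unramified outside `5`) is split into

* a pure number field half `StmtS3NF` (no Galois group of `ℚ̄`): a Galois number field `M` of
  degree `6` containing a square root `s` of `5` such that `M / ℚ(s)` is unramified at all finite
  primes (= the inertia group in `Gal(M/ℚ)` of every nonzero prime of `𝓞 M` meets the stabiliser
  of `s` trivially) does not exist.  It is itself split into
  - `StmtS3DiscK` : the discriminant of a quadratic field containing `√5` divides `5`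
    (`aeval_derivative_mem_differentIdeal` for `(1 + s) / 2`, whose minimal polynomial is
    `X² - X - 1`);
  - `StmtS3Mink` : Minkowski's bound in degree `6` is `> 125` (`NumberField.abs_discr_ge'`);
  - the tower formula `NumberField.natAbs_discr_eq_absNorm_differentIdeal_mul_natAbs_discr_pow`
    together with `not_dvd_differentIdeal_iff` and `Ideal.card_inertia_eq_ramificationIdxIn`
    (`stmtS3NF_of : StmtS3DiscK → StmtS3Mink → StmtS3NF`);
* the Galois half `stmtS3_of : StmtS3NF → StmtS3` (`EC/Big/S3Five.lean`).
-/

set_option autoImplicit false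

namespace Fermat.Agent.EC

open scoped NumberField

/-- **S3-NF**: there is no Galois number field `M` of degree `6` containing `s = √5` and
unramified over `ℚ(s)` at every nonzero prime `P` of `𝓞 M`: "unramified" is expressed by
"an element `g` of `Gal(M/ℚ)` which fixes `s` and is trivial modulo `P` is trivial". -/
def StmtS3NF : Prop :=
  ∀ (M : Type) [Field M] [NumberField M] [IsGalois ℚ M], Module.finrank ℚ M = 6 →
    ∀ s : M, s ^ 2 = 5 →
      (∀ P : Ideal (𝓞 M), P.IsPrime → P ≠ ⊥ → ∀ g : M ≃ₐ[ℚ] M, g s = s →
        (∀ x : 𝓞 M, ∃ y ∈ P, (y : M) = g (x : M) - (x : M)) → g = 1) → False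

/-- **S3-DISCK**: the discriminant of a quadratic field containing a square root of `5`
divides `5`. -/
def StmtS3DiscK : Prop :=
  ∀ (K : Type) [Field K] [NumberField K], Module.finrank ℚ K = 2 → ∀ s : K, s ^ 2 = 5 →
    (NumberField.discr K).natAbs ∣ 5

/-- **S3-MINK**: the absolute value of the discriminant of a number field of degree `6` is
larger than `125` (Minkowski: it is `≥ 6¹² / ((4/π)⁶ · 720²) > 700`). -/
def StmtS3Mink : Prop :=
  ∀ (M : Type) [Field M] [NumberField M], Module.finrank ℚ M = 6 →
    125 < (NumberField.discr M).natAbs

end Fermat.Agent.EC
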