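import Mathlib
import Fermat.Agent.EC.Big.S3Plan

set_option autoImplicit false
set_option linter.style.haveILetI false

namespace Fermat.Agent.EC

open scoped NumberField
open NumberField Module Polynomial

/-- `5` is not the square of a rational number -/
theorem ecbig_s3d_not_sq (r : ℚ) : r ^ 2 ≠ 5 := by
  intro h1
  have h2 : IsSquare ((5 : ℕ) : ℚ) := ⟨r, by rw [← pow_two, h1]; norm_num⟩
  rw [Rat.isSquare_natCast_iff] at h2
  obtain ⟨m, hm⟩ := h2
  have : m ≤ 2 := by nlinarith
  interval_cases m <;> omega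

/-- in a quadratic field containing `s = √5`, `(1 + s) / 2` generates the field -/
theorem ecbig_s3d_adjoin (K : Type) [Field K] [NumberField K] (h2 : Module.finrank ℚ K = 2)
    (s : K) (hs : s ^ 2 = 5) : IntermediateField.adjoin ℚ {(1 + s) / 2} = ⊤ := by
  haveI : IsSimpleOrder (IntermediateField ℚ K) :=
    IntermediateField.isSimpleOrder_of_finrank_prime ℚ K (h2 ▸ Nat.prime_two)
  rcases eq_bot_or_eq_top (IntermediateField.adjoin ℚ {(1 + s) / 2}) with h | h
  · exfalso
    have h1 : (1 + s) / 2 ∈ (⊥ : IntermediateField ℚ K) :=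
      h ▸ IntermediateField.mem_adjoin_simple_self ℚ _
    rw [IntermediateField.mem_bot] at h1
    obtain ⟨r, hr⟩ := h1
    refine ecbig_s3d_not_sq (2 * r - 1) ?_
    apply (algebraMap ℚ K).injective
    have h3 : algebraMap ℚ K (2 * r - 1) = s := by
      rw [map_sub, map_mul, hr, map_ofNat, map_one]
      ring
    rw [map_pow, h3, hs, map_ofNat]
  · exact h

/-- the polynomial `X² - X - 1` -/
theorem ecbig_s3d_poly_eq (R : Type) [CommRing R] :
    (X ^ 2 - X - 1 : R[X]) = X ^ 2 - (X + C 1) := by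
  rw [map_one]; ring

theorem ecbig_s3d_poly_monic (R : Type) [CommRing R] [Nontrivial R] :
    (X ^ 2 - X - 1 : R[X]).Monic := by
  rw [ecbig_s3d_poly_eq]
  exact monic_X_pow_sub (by rw [degree_X_add_C]; norm_num)

theorem ecbig_s3d_poly_natDegree (R : Type) [CommRing R] [Nontrivial R] :
    (X ^ 2 - X - 1 : R[X]).natDegree = 2 := by
  rw [ecbig_s3d_poly_eq]
  have h1 : (X + C 1 : R[X]).natDegree < (X ^ 2 : R[X]).natDegree := by
    rw [natDegree_X_add_C, natDegree_X_pow]
    norm_num
  rw [natDegree_sub_eq_left_of_natDegree_lt h1, natDegree_X_pow]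

/-- the minimal polynomial of `(1 + √5) / 2` -/
theorem ecbig_s3d_minpoly (K : Type) [Field K] [NumberField K] (h2 : Module.finrank ℚ K = 2)
    (s : K) (hs : s ^ 2 = 5) (x : 𝓞 K) (hx : algebraMap (𝓞 K) K x = (1 + s) / 2) :
    minpoly ℤ x = X ^ 2 - X - 1 := by
  have hxint' : IsIntegral ℤ x := RingOfIntegers.isIntegral x
  have hxint : IsIntegral ℤ (algebraMap (𝓞 K) K x) := hxint'.map (IsScalarTower.toAlgHom ℤ (𝓞 K) K)
  have hxintQ : IsIntegral ℚ (algebraMap (𝓞 K) K x) := hxint.tower_top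
  have hroot : aeval (algebraMap (𝓞 K) K x) (X ^ 2 - X - 1 : ℚ[X]) = 0 := by
    simp only [map_sub, map_pow, aeval_X, map_one]
    rw [hx]
    field_simp
    linear_combination hs
  -- the minimal polynomial over `ℚ`
  have hQ : minpoly ℚ (algebraMap (𝓞 K) K x) = X ^ 2 - X - 1 := by
    have hdvd := minpoly.dvd ℚ (algebraMap (𝓞 K) K x) hroot
    have hdeg : (minpoly ℚ (algebraMap (𝓞 K) K x)).natDegree = 2 := by
      rw [← IntermediateField.adjoin.finrank hxintQ, hx, ecbig_s3d_adjoin K h2 s hs,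
        IntermediateField.finrank_top', h2]
    exact eq_of_monic_of_dvd_of_natDegree_le (minpoly.monic hxintQ) (ecbig_s3d_poly_monic ℚ)
      hdvd (by rw [hdeg, ecbig_s3d_poly_natDegree]) |>.symm
  have h1 := minpoly.isIntegrallyClosed_eq_field_fractions' ℚ hxint
  rw [hQ, minpoly.algebraMap_eq (FaithfulSMul.algebraMap_injective (𝓞 K) K)] at h1
  apply Polynomial.map_injective (algebraMap ℤ ℚ) (algebraMap ℤ ℚ).injective_int
  rw [← h1]
  simp

/-- **S3-DISCK**: the discriminant of `ℚ(√5)` divides `5`. -/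
theorem stmtS3DiscK : StmtS3DiscK := by
  intro K _ _ h2 s hs
  have hθint : IsIntegral ℤ ((1 + s) / 2 : K) := by
    refine ⟨X ^ 2 - X - 1, ecbig_s3d_poly_monic ℤ, ?_⟩
    rw [← aeval_def]
    simp only [map_sub, map_pow, aeval_X, map_one]
    field_simp
    linear_combination hs
  have hsint : IsIntegral ℤ s := by
    refine IsIntegral.of_pow (n := 2) (by norm_num) ?_
    rw [hs]
    have h5 : (5 : K) = algebraMap ℤ K 5 := by simp
    rw [h5]
    exact isIntegral_algebraMap
  let x : 𝓞 K := ⟨(1 + s) / 2, hθint⟩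
  let s' : 𝓞 K := ⟨s, hsint⟩
  have hx : algebraMap (𝓞 K) K x = (1 + s) / 2 := rfl
  have hs' : algebraMap (𝓞 K) K s' = s := rfl
  have hmin := ecbig_s3d_minpoly K h2 s hs x hx
  have hadj : Algebra.adjoin ℚ {algebraMap (𝓞 K) K x} = ⊤ := by
    rw [hx, ← IntermediateField.adjoin_simple_toSubalgebra_of_isAlgebraic
      (hθint.tower_top (A := ℚ)).isAlgebraic, ecbig_s3d_adjoin K h2 s hs,
      IntermediateField.top_toSubalgebra]
  have hmem := aeval_derivative_mem_differentIdeal ℤ ℚ K x hadj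
  rw [hmin] at hmem
  have hder : aeval x (derivative (X ^ 2 - X - 1 : ℤ[X])) = s' := by
    apply FaithfulSMul.algebraMap_injective (𝓞 K) K
    rw [hs']
    simp only [derivative_X_pow, derivative_X, derivative_one, map_sub, map_mul,
      map_pow, aeval_X, map_one, sub_zero, map_natCast]
    rw [hx]
    push_cast
    ring
  rw [hder] at hmem
  have hle : Ideal.span {s'} ≤ differentIdeal ℤ (𝓞 K) :=
    (Ideal.span_singleton_le_iff_mem _).2 hmem
  have hdvd := Ideal.absNorm_dvd_absNorm_of_le hle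
  rw [NumberField.absNorm_differentIdeal K (𝓞 K), Ideal.absNorm_span_singleton] at hdvd
  have hn : (Algebra.norm ℤ s') ^ 2 = 25 := by
    rw [← map_pow]
    have h1 : s' ^ 2 = algebraMap ℤ (𝓞 K) 5 := by
      apply FaithfulSMul.algebraMap_injective (𝓞 K) K
      rw [map_pow, hs', hs, ← IsScalarTower.algebraMap_apply ℤ (𝓞 K) K]
      simp
    rw [h1, Algebra.norm_algebraMap, RingOfIntegers.rank, h2]
    norm_num
  have hn' : (Algebra.norm ℤ s').natAbs = 5 := by
    have h3 : ((Algebra.norm ℤ s').natAbs : ℤ) ^ 2 = 25 := by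
      rw [Int.natCast_natAbs, sq_abs]
      exact hn
    have h4 : ((Algebra.norm ℤ s').natAbs : ℤ) = 5 := by
      have h5 : (0 : ℤ) ≤ ((Algebra.norm ℤ s').natAbs : ℤ) := Int.natCast_nonneg _
      nlinarith
    exact_mod_cast h4
  rwa [hn'] at hdvd

end Fermat.Agent.EC
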