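import Mathlib
import Fermat.Agent.EC.Big.Plan
import Fermat.Agent.EC.Big.S3Plan
import Fermat.Agent.EC.Big.TameAb
import Fermat.Agent.EC.Big.Quad
import Fermat.Agent.Common.InertiaLift
import Fermat.Agent.Cheb.Glue

/-!
# E-BIG, piece S3-5, Galois half: `stmtS3_of : StmtS3NF → StmtS3`

Let `H ⊇ N` be normal of index six in `G_ℚ` with non-commutative quotient, `N` unramified
outside `5`.
* `ecbig_s3_grp` : a non-commutative group of order six has a subgroup `C` of index two which
  contains the centraliser of each of its nontrivial elements;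
* `ecbig_s3_exists_H2` : the pull back `H₂ ⊇ H` of `C`;
* `ecbig_s3_inertia_inf_le` : `I_A ∩ H₂ ≤ H` for every place `A` (for `q ≠ 5` by hypothesis;
  for `q = 5` the image of `I_A` in `G_ℚ / H` is commutative by TAME-AB, so if `I_A ∩ H₂ ⊄ H`
  then `I_A ≤ H₂`, and `H₂ = G_ℚ` by Minkowski);
* `ecbig_s3_unr` : the hypothesis of `StmtS3NF` for the fixed field `M` of `H` and `s = √5`
  (`H₂` is the stabiliser of `s` by QUAD);
* `stmtS3_of`.
-/

set_option autoImplicit false
set_option linter.unusedSectionVars false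
set_option linter.style.haveILetI false

namespace Fermat.Agent.EC

open scoped NumberField

/-- `ℚ̄` -/
local notation "Qbar" => AlgebraicClosure ℚ
/-- `G_ℚ` -/
local notation "GQ" => (AlgebraicClosure ℚ ≃ₐ[ℚ] AlgebraicClosure ℚ)

/-- group theory: a non-commutative group of order six has a subgroup `C` of index two such
that the centraliser of every nontrivial element of `C` is contained in `C`. -/
theorem ecbig_s3_grp (Q : Type) [Group Q] (h6 : Nat.card Q = 6)
    (hnc : ∃ a b : Q, a * b ≠ b * a) :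
    ∃ C : Subgroup Q, C.index = 2 ∧ ∀ x ∈ C, x ≠ 1 → ∀ y : Q, x * y = y * x → y ∈ C := by
  haveI : Finite Q := Nat.finite_of_card_ne_zero (by omega)
  haveI : Fact (Nat.Prime 3) := ⟨by norm_num⟩
  haveI : Fact (Nat.Prime 2) := ⟨by norm_num⟩
  obtain ⟨x₀, hx₀⟩ := exists_prime_orderOf_dvd_card' (G := Q) 3 (by rw [h6]; norm_num)
  set C : Subgroup Q := Subgroup.zpowers x₀ with hC
  have hcard : Nat.card C = 3 := by rw [hC, Nat.card_zpowers, hx₀]
  have hidx : C.index = 2 := by
    have h1 := C.card_mul_index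
    rw [hcard, h6] at h1
    omega
  refine ⟨C, hidx, ?_⟩
  intro x hxC hx1 y hxy
  by_contra hyC
  -- the centraliser of `x` is everything
  have hCZ : C ≤ Subgroup.centralizer {x} := by
    intro c hc
    rw [Subgroup.mem_centralizer_iff]
    intro z hz
    rw [Set.mem_singleton_iff] at hz
    subst hz
    obtain ⟨i, rfl⟩ := Subgroup.mem_zpowers_iff.1 hc
    obtain ⟨j, rfl⟩ := Subgroup.mem_zpowers_iff.1 hxC
    rw [← zpow_add, ← zpow_add, add_comm]
  have hyZ : y ∈ Subgroup.centralizer {x} := by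
    rw [Subgroup.mem_centralizer_iff]
    intro z hz
    rw [Set.mem_singleton_iff] at hz
    subst hz
    exact hxy
  have hZtop : Subgroup.centralizer {x} = ⊤ := by
    have h3 : 3 ∣ Nat.card (Subgroup.centralizer {x}) := hcard ▸ Subgroup.card_dvd_of_le hCZ
    have h6' : Nat.card (Subgroup.centralizer {x}) ∣ 6 := h6 ▸ Subgroup.card_subgroup_dvd_card _
    have hne : Nat.card (Subgroup.centralizer {x}) ≠ 3 := by
      intro h
      have : C = Subgroup.centralizer {x} :=
        Subgroup.eq_of_le_of_card_ge hCZ (by rw [h, hcard])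
      exact hyC (this ▸ hyZ)
    have hle : Nat.card (Subgroup.centralizer {x}) ≤ 6 := Nat.le_of_dvd (by norm_num) h6'
    have h6'' : Nat.card (Subgroup.centralizer {x}) = 6 := by
      obtain ⟨k, hk⟩ := h3
      have hk2 : k ≤ 2 := by omega
      interval_cases k
      · rw [hk] at h6'; simp at h6'
      · omega
      · omega
    exact Subgroup.eq_top_of_card_eq _ (by rw [h6'', h6])
  -- `x` is central
  have hxcen : x ∈ Subgroup.center Q := by
    rw [Subgroup.mem_center_iff]
    intro g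
    have hg : g ∈ Subgroup.centralizer {x} := hZtop ▸ Subgroup.mem_top g
    rw [Subgroup.mem_centralizer_iff] at hg
    exact (hg x rfl).symm
  -- the order of `x` is three
  have hox : orderOf x = 3 := by
    have h1 : orderOf x ∣ 3 := by
      have := orderOf_dvd_natCard (⟨x, hxC⟩ : C)
      rw [hcard] at this
      rwa [← Subgroup.orderOf_mk x hxC]
    rcases (Nat.dvd_prime (by norm_num : Nat.Prime 3)).1 h1 with h | h
    · exact absurd (orderOf_eq_one_iff.1 h) hx1
    · exact h
  have h3c : 3 ∣ Nat.card (Subgroup.center Q) := by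
    have := orderOf_dvd_natCard (⟨x, hxcen⟩ : Subgroup.center Q)
    rwa [Subgroup.orderOf_mk x hxcen, hox] at this
  have hci : (Subgroup.center Q).index = 1 ∨ (Subgroup.center Q).index = 2 := by
    have h1 := (Subgroup.center Q).card_mul_index
    rw [h6] at h1
    obtain ⟨k, hk⟩ := h3c
    rw [hk] at h1
    have hk0 : 0 < k := by
      rcases Nat.eq_zero_or_pos k with h | h
      · rw [h] at h1; simp at h1
      · exact h
    have : k * (Subgroup.center Q).index = 2 := by nlinarith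
    have hi : (Subgroup.center Q).index ∣ 2 := Dvd.intro_left _ this
    rcases (Nat.dvd_prime Nat.prime_two).1 hi with h | h
    · exact Or.inl h
    · exact Or.inr h
  haveI : IsCyclic (Q ⧸ Subgroup.center Q) := by
    rcases hci with h | h
    · haveI : Subsingleton (Q ⧸ Subgroup.center Q) := by
        rw [← Finite.card_le_one_iff_subsingleton, ← Subgroup.index_eq_card, h]
      exact isCyclic_of_subsingleton
    · exact isCyclic_of_prime_card (p := 2) (by rw [← Subgroup.index_eq_card, h])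
  obtain ⟨a, b, hab⟩ := hnc
  haveI := MonoidHom.isMulCommutative_of_isCyclic_of_ker_le_center
    (QuotientGroup.mk' (Subgroup.center Q)) (by rw [QuotientGroup.ker_mk'])
  exact hab (mul_comm' a b)

/-- the subgroup `H₂ ⊇ H` of index two -/
theorem ecbig_s3_exists_H2 (H : Subgroup GQ) (hHn : H.Normal) (hidx : H.index = 6)
    (hnc : ∃ σ τ : GQ, σ * τ * σ⁻¹ * τ⁻¹ ∉ H) :
    ∃ H₂ : Subgroup GQ, H ≤ H₂ ∧ H₂.index = 2 ∧
      ∀ x ∈ H₂, x ∉ H → ∀ y : GQ, x * y * x⁻¹ * y⁻¹ ∈ H → y ∈ H₂ := by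
  haveI := hHn
  have h6 : Nat.card (GQ ⧸ H) = 6 := by rw [← Subgroup.index_eq_card, hidx]
  have hnc' : ∃ a b : GQ ⧸ H, a * b ≠ b * a := by
    obtain ⟨σ, τ, hστ⟩ := hnc
    refine ⟨QuotientGroup.mk' H σ, QuotientGroup.mk' H τ, fun h => hστ ?_⟩
    rw [← QuotientGroup.eq_one_iff, QuotientGroup.mk_mul, QuotientGroup.mk_mul,
      QuotientGroup.mk_mul, QuotientGroup.mk_inv, QuotientGroup.mk_inv]
    have h' : (σ : GQ ⧸ H) * (τ : GQ ⧸ H) = (τ : GQ ⧸ H) * (σ : GQ ⧸ H) := h
    rw [h', mul_inv_cancel_right, mul_inv_cancel]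
  obtain ⟨C, hC2, hC⟩ := ecbig_s3_grp (GQ ⧸ H) h6 hnc'
  refine ⟨C.comap (QuotientGroup.mk' H), ?_, ?_, ?_⟩
  · intro h hh
    rw [Subgroup.mem_comap]
    have : QuotientGroup.mk' H h = 1 := (QuotientGroup.eq_one_iff h).2 hh
    rw [this]
    exact C.one_mem
  · rw [Subgroup.index_comap_of_surjective C (QuotientGroup.mk'_surjective H), hC2]
  · intro x hx hxH y hxy
    rw [Subgroup.mem_comap] at hx ⊢
    refine hC _ hx ?_ _ ?_
    · intro h1
      exact hxH ((QuotientGroup.eq_one_iff x).1 h1)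
    · have h1 : ((x * y * x⁻¹ * y⁻¹ : GQ) : GQ ⧸ H) = 1 := (QuotientGroup.eq_one_iff _).2 hxy
      rw [QuotientGroup.mk_mul, QuotientGroup.mk_mul, QuotientGroup.mk_mul,
        QuotientGroup.mk_inv, QuotientGroup.mk_inv] at h1
      have h2 : (x : GQ ⧸ H) * (y : GQ ⧸ H) * (x : GQ ⧸ H)⁻¹ = (y : GQ ⧸ H) :=
        mul_inv_eq_one.1 h1
      exact mul_inv_eq_iff_eq_mul.1 h2

/-- `I_A ∩ H₂ ≤ H` for every place `A` -/
theorem ecbig_s3_inertia_inf_le (hTA : StmtTameAb) (N : Subgroup GQ) (hN : EcbigUnr 5 N)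
    (H : Subgroup GQ) (hNH : N ≤ H) (hHn : H.Normal) (hidx : H.index = 6)
    (H₂ : Subgroup GQ) (hH₂ : H ≤ H₂) (hidx2 : H₂.index = 2)
    (hcent : ∀ x ∈ H₂, x ∉ H → ∀ y : GQ, x * y * x⁻¹ * y⁻¹ ∈ H → y ∈ H₂)
    (q : ℕ) (hq : q.Prime) (A : ValuationSubring Qbar) (hA : A.LiesOverPrime q) :
    ∀ x ∈ A.inertiaSubgroupIn ℚ, x ∈ H₂ → x ∈ H := by
  intro x hxI hx2
  by_cases hq5 : q = 5
  · subst hq5
    by_contra hxH
    have hS : ∃ S : Finset Qbar, ∀ σ : GQ, (∀ s ∈ S, σ s = s) → σ ∈ H := by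
      obtain ⟨S, hS⟩ := hN.level
      exact ⟨S, fun σ hσ => hNH (hS σ hσ)⟩
    have hS2 : ∃ S : Finset Qbar, ∀ σ : GQ, (∀ s ∈ S, σ s = s) → σ ∈ H₂ := by
      obtain ⟨S, hS⟩ := hS
      exact ⟨S, fun σ hσ => hH₂ (hS σ hσ)⟩
    have hI2 : A.inertiaSubgroupIn ℚ ≤ H₂ := by
      intro y hy
      refine hcent x hx2 hxH y ?_
      refine hTA 5 hq A hA H hHn hS ?_ x hxI y hy
      rw [hidx]
      norm_num
    have htop : H₂ = ⊤ := by
      refine Fermat.Agent.S13.Minkowski.minkowski_glue H₂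
        (Subgroup.normal_of_index_eq_two hidx2) hS2 ?_
      intro q' hq'
      by_cases hq'5 : q' = 5
      · subst hq'5
        exact ⟨A, hA, hI2⟩
      · obtain ⟨B, hB⟩ := Fermat.Agent.Common.exists_liesOverPrime q' hq'
        exact ⟨B, hB, le_trans (hN.unr q' hq' hq'5 B hB) (le_trans hNH hH₂)⟩
    rw [htop, Subgroup.index_top] at hidx2
    norm_num at hidx2
  · exact hNH (hN.unr q hq hq5 A hA hxI)

/-- A nonzero prime of the ring of integers of a number field contains a rational prime. -/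
theorem ecbig_s3_exists_prime_mem {L : Type} [Field L] [NumberField L]
    (P : Ideal (𝓞 L)) (hP : P.IsPrime) (hPbot : P ≠ ⊥) : ∃ q : ℕ, q.Prime ∧ (q : 𝓞 L) ∈ P := by
  haveI : P.IsMaximal := hP.isMaximal hPbot
  letI := Ideal.Quotient.field P
  obtain ⟨q, hq⟩ := CharP.exists (𝓞 L ⧸ P)
  have hn0 : Ideal.absNorm P ≠ 0 := by
    rw [Ne, Ideal.absNorm_eq_zero_iff]
    exact hPbot
  have hnP : ((Ideal.absNorm P : ℕ) : 𝓞 L ⧸ P) = 0 := by
    have h := Ideal.absNorm_mem P
    have h2 := (Ideal.Quotient.eq_zero_iff_mem).2 h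
    rwa [map_natCast] at h2
  have hq0 : q ≠ 0 := by
    rintro rfl
    have := (CharP.cast_eq_zero_iff (𝓞 L ⧸ P) 0 _).1 hnP
    exact hn0 (Nat.eq_zero_of_zero_dvd this)
  have hqp : q.Prime := (CharP.char_is_prime_or_zero (𝓞 L ⧸ P) q).resolve_right hq0
  refine ⟨q, hqp, ?_⟩
  have h1 : ((q : ℕ) : 𝓞 L ⧸ P) = 0 := CharP.cast_eq_zero _ q
  rw [← map_natCast (Ideal.Quotient.mk P)] at h1
  exact (Ideal.Quotient.eq_zero_iff_mem).1 h1

/-- the fixed field of a normal subgroup of finite level -/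
theorem ecbig_s3_field (H : Subgroup GQ) (hHn : H.Normal)
    (hS : ∃ S : Finset Qbar, ∀ σ : GQ, (∀ s ∈ S, σ s = s) → σ ∈ H) :
    (IntermediateField.fixedField H).fixingSubgroup = H ∧
    FiniteDimensional ℚ (IntermediateField.fixedField H) ∧
    IsGalois ℚ (IntermediateField.fixedField H) ∧
    Module.finrank ℚ (IntermediateField.fixedField H) = H.index := by
  haveI := Fermat.Agent.Common.isAlgClosure_rat_qbar
  haveI : IsGalois ℚ Qbar := inferInstance
  haveI := hHn
  have hclosed : IsClosed (H : Set GQ) := ecbig_ta_isClosed H hS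
  have hfix : (IntermediateField.fixedField H).fixingSubgroup = H :=
    InfiniteGalois.fixingSubgroup_fixedField ⟨H, hclosed⟩
  have hopen : IsOpen (H : Set GQ) := by
    obtain ⟨S, hS⟩ := hS
    haveI : FiniteDimensional ℚ (IntermediateField.adjoin ℚ (S : Set Qbar)) :=
      IntermediateField.finiteDimensional_adjoin (fun x _ =>
        (Algebra.IsIntegral.isIntegral (R := ℚ) x))
    have hle : (IntermediateField.adjoin ℚ (S : Set Qbar)).fixingSubgroup ≤ H := by
      intro σ hσ
      apply hS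
      intro s hs
      exact (IntermediateField.mem_fixingSubgroup_iff _ σ).mp hσ s
        (IntermediateField.subset_adjoin ℚ _ (Finset.mem_coe.mpr hs))
    exact Subgroup.isOpen_mono hle (IntermediateField.fixingSubgroup_isOpen _)
  have hfin : FiniteDimensional ℚ (IntermediateField.fixedField H) := by
    refine (InfiniteGalois.isOpen_iff_finite (IntermediateField.fixedField H)).1 ?_
    rw [hfix]
    exact hopen
  have hgal : IsGalois ℚ (IntermediateField.fixedField H) := by
    refine (InfiniteGalois.normal_iff_isGalois (IntermediateField.fixedField H)).1 ?_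
    rw [hfix]
    exact hHn
  refine ⟨hfix, hfin, hgal, ?_⟩
  haveI := hfin
  haveI := hgal
  rw [← IsGalois.card_aut_eq_finrank ℚ (IntermediateField.fixedField H), Subgroup.index_eq_card]
  exact (Nat.card_congr (InfiniteGalois.normalAutEquivQuotient ⟨H, hclosed⟩).toEquiv).symm

/-- **S3-5, Galois half.** -/
theorem stmtS3_of (hNF : StmtS3NF) : StmtS3 := by
  intro N hN H hNH hHn hidx σ τ
  by_contra hστ
  haveI := Fermat.Agent.Common.isAlgClosure_rat_qbar
  haveI : Normal ℚ Qbar := IsAlgClosure.normal ℚ Qbar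
  have hS : ∃ S : Finset Qbar, ∀ σ : GQ, (∀ s ∈ S, σ s = s) → σ ∈ H := by
    obtain ⟨S, hS⟩ := hN.level
    exact ⟨S, fun σ hσ => hNH (hS σ hσ)⟩
  obtain ⟨H₂, hH₂, hidx2, hcent⟩ := ecbig_s3_exists_H2 H hHn hidx ⟨σ, τ, hστ⟩
  obtain ⟨hfix, hfin, hgal, hrank⟩ := ecbig_s3_field H hHn hS
  haveI := hfin
  haveI := hgal
  haveI : NumberField (IntermediateField.fixedField H) := ⟨⟩
  -- the square root of five
  obtain ⟨s, hs⟩ : ∃ s : Qbar, s ^ 2 = 5 := IsAlgClosed.exists_pow_nat_eq 5 (by norm_num)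
  have hquad : ∀ σ : GQ, σ ∈ H₂ ↔ σ s = s :=
    stmtQuad 5 (by norm_num) (by norm_num) 5 rfl (by norm_num) s (by rw [hs]; norm_num) N hN H₂
      (le_trans hNH hH₂) hidx2
  have hsM : s ∈ IntermediateField.fixedField H := by
    rw [IntermediateField.mem_fixedField_iff]
    intro h hh
    exact (hquad h).1 (hH₂ hh)
  refine hNF (IntermediateField.fixedField H) (by rw [hrank, hidx]) ⟨s, hsM⟩
    (Subtype.ext (by
      show (s : Qbar) ^ 2 = ((5 : IntermediateField.fixedField H) : Qbar)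
      rw [hs]
      rfl)) ?_
  intro P hP hPbot g hgs hg
  obtain ⟨A, hA⟩ := Fermat.Agent.Cheb.exists_valuationSubring_of_ideal
    (IntermediateField.fixedField H) P hP.ne_top
  obtain ⟨q, hq, hqP⟩ := ecbig_s3_exists_prime_mem P hP hPbot
  have hAq : A.LiesOverPrime q := by
    have h := hA _ hqP
    have h2 : Fermat.Agent.Cheb.intEmb (IntermediateField.fixedField H)
        (q : 𝓞 (IntermediateField.fixedField H)) = (q : Qbar) :=
      map_natCast (Fermat.Agent.Cheb.intEmb (IntermediateField.fixedField H)) q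
    rw [h2] at h
    exact h
  -- lift `g` to `G_ℚ`
  let σt : GQ := g.liftNormal Qbar
  have hσt : ∀ x : IntermediateField.fixedField H, σt (x : Qbar) = ((g x :
      IntermediateField.fixedField H) : Qbar) :=
    fun x => g.liftNormal_commutes Qbar x
  obtain ⟨σ', hσ'I, hσ'⟩ := Fermat.Agent.Common.exists_mem_inertiaSubgroupIn_of_congr
    (IntermediateField.fixedField H) q hq A hAq σt (by
      intro x hx hxint
      have hint : IsIntegral ℤ (⟨x, hx⟩ : IntermediateField.fixedField H) :=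
        (isIntegral_algebraMap_iff
          (algebraMap (IntermediateField.fixedField H) Qbar).injective).1 hxint
      let y : 𝓞 (IntermediateField.fixedField H) := ⟨⟨x, hx⟩, hint⟩
      obtain ⟨z, hzP, hz⟩ := hg y
      have h := hA z hzP
      have h2 : Fermat.Agent.Cheb.intEmb (IntermediateField.fixedField H) z = σt x - x := by
        rw [Fermat.Agent.Cheb.intEmb_apply, hz]
        have h3 := hσt ⟨x, hx⟩
        rw [h3]
        rfl
      rw [h2] at h
      exact h)
  have hσ'2 : σ' ∈ H₂ := by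
    rw [hquad, hσ' s hsM]
    have h3 := hσt ⟨s, hsM⟩
    rw [hgs] at h3
    exact h3
  have hσ'H : σ' ∈ H :=
    ecbig_s3_inertia_inf_le stmtTameAb N hN H hNH hHn hidx H₂ hH₂ hidx2 hcent q hq A hAq σ'
      hσ'I hσ'2
  ext x
  have h1 : σ' (x : Qbar) = σt (x : Qbar) := hσ' x x.2
  have h2 : σ' (x : Qbar) = (x : Qbar) :=
    (IntermediateField.mem_fixedField_iff H (x : Qbar)).1 x.2 σ' hσ'H
  rw [hσt] at h1
  show ((g x : IntermediateField.fixedField H) : Qbar) = _
  rw [← h1, h2]
  rfl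

end Fermat.Agent.EC
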