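import Mathlib
import Fermat.Agent.EC.Big.S3Plan

set_option autoImplicit false
set_option linter.style.haveILetI false

namespace Fermat.Agent.EC

open scoped NumberField
open NumberField Module

/-- **S3-MINK**: Minkowski's bound in degree six. -/
theorem stmtS3Mink : StmtS3Mink := by
  intro M _ _ h6
  have h1 := NumberField.abs_discr_ge' M
  rw [h6] at h1
  have hr : 2 * InfinitePlace.nrComplexPlaces M ≤ 6 := by
    have := InfinitePlace.card_add_two_mul_card_eq_rank M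
    rw [h6] at this
    omega
  have hpi3 : (3 : ℝ) < Real.pi := Real.pi_gt_three
  have hpi4 : Real.pi ≤ 4 := Real.pi_le_four
  have hpos : (0 : ℝ) < Real.pi := Real.pi_pos
  have h4pi : (1 : ℝ) ≤ 4 / Real.pi := by
    rw [le_div_iff₀ hpos]
    linarith
  have h4pi' : (4 : ℝ) / Real.pi ≤ 4 / 3 := by
    apply div_le_div_of_nonneg_left (by norm_num) (by norm_num) hpi3.le
  have hpow : (4 / Real.pi) ^ (2 * InfinitePlace.nrComplexPlaces M) ≤ (4 / 3 : ℝ) ^ 6 :=
    le_trans (pow_le_pow_right₀ h4pi hr) (pow_le_pow_left₀ (by positivity) h4pi' 6)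
  have hpos2 : (0 : ℝ) < (4 / Real.pi) ^ (2 * InfinitePlace.nrComplexPlaces M) := by positivity
  have h2 : (125 : ℝ) < ((6 : ℕ) : ℝ) ^ (2 * 6) /
      ((4 / Real.pi) ^ (2 * InfinitePlace.nrComplexPlaces M) * ((Nat.factorial 6 : ℕ) : ℝ) ^ 2) := by
    rw [lt_div_iff₀ (by positivity)]
    have hf : ((Nat.factorial 6 : ℕ) : ℝ) = 720 := by norm_num [Nat.factorial]
    rw [hf]
    calc (125 : ℝ) * ((4 / Real.pi) ^ (2 * InfinitePlace.nrComplexPlaces M) * 720 ^ 2)
        ≤ 125 * ((4 / 3 : ℝ) ^ 6 * 720 ^ 2) := by gcongr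
      _ < ((6 : ℕ) : ℝ) ^ (2 * 6) := by norm_num
  have h3 : (125 : ℝ) < ((|NumberField.discr M| : ℤ) : ℝ) := lt_of_lt_of_le h2 h1
  have h4 : ((|NumberField.discr M| : ℤ) : ℝ) = (((NumberField.discr M).natAbs : ℕ) : ℝ) := by
    rw [Nat.cast_natAbs]
  rw [h4] at h3
  exact_mod_cast h3

end Fermat.Agent.EC
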