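import Mathlib
import Fermat.Agent.EC.Big.S3Plan
import Fermat.Agent.EC.Big.S3Disc

/-!
# E-BIG, piece S3-5, pure number field half

`ecbig_s3n48_NF_of : StmtS3DiscK → StmtS3Mink → StmtS3NF`: for `K = ℚ(s) ⊆ M`, the hypothesis
says that all inertia groups of `Gal(M/K)` are trivial, hence (`Ideal.card_inertia_eq_ramificationIdxIn`,
`Ideal.ramificationIdx_eq_one_iff`, `not_dvd_differentIdeal_iff`) the relative different is
trivial and `|d_M| = |d_K|³ ≤ 125` by the tower formula, against Minkowski's bound.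
-/

set_option autoImplicit false
set_option linter.style.haveILetI false

namespace Fermat.Agent.EC

open scoped NumberField
open NumberField Module Polynomial

/-- the degree of `ℚ(√5)` -/
theorem ecbig_s3n48_finrank (M : Type) [Field M] [NumberField M] (s : M) (hs : s ^ 2 = 5) :
    Module.finrank ℚ (IntermediateField.adjoin ℚ {s}) = 2 := by
  have hint : IsIntegral ℚ s := Algebra.IsIntegral.isIntegral s
  have hroot : aeval s (X ^ 2 - C 5 : ℚ[X]) = 0 := by
    simp only [map_sub, map_pow, aeval_X, map_ofNat]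
    rw [hs, sub_self]
  have hdvd := minpoly.dvd ℚ s hroot
  have hle : (minpoly ℚ s).natDegree ≤ 2 := by
    have h1 := natDegree_le_of_dvd hdvd (X_pow_sub_C_ne_zero (by norm_num) 5)
    rwa [natDegree_X_pow_sub_C] at h1
  have h1 : Module.finrank ℚ (IntermediateField.adjoin ℚ {s}) ≠ 1 := by
    intro h
    rw [IntermediateField.finrank_eq_one_iff] at h
    have h2 : s ∈ (⊥ : IntermediateField ℚ M) := h ▸ IntermediateField.mem_adjoin_simple_self ℚ s
    rw [IntermediateField.mem_bot] at h2
    obtain ⟨r, hr⟩ := h2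
    refine ecbig_s3d_not_sq r ?_
    apply (algebraMap ℚ M).injective
    rw [map_pow, hr, hs, map_ofNat]
  have h0 : 0 < Module.finrank ℚ (IntermediateField.adjoin ℚ {s}) := Module.finrank_pos
  rw [IntermediateField.adjoin.finrank hint] at h1 h0 ⊢
  omega

/-- the relative extension is unramified at `P` if the inertia group is trivial -/
theorem ecbig_s3n48_unr (M : Type) [Field M] [NumberField M] [IsGalois ℚ M]
    (K : IntermediateField ℚ M) (P : Ideal (𝓞 M)) [P.IsPrime]
    (h : ∀ g : M ≃ₐ[K] M, (∀ x : 𝓞 M, ∃ y ∈ P, (y : M) = g (x : M) - (x : M)) → g = 1) :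
    Algebra.IsUnramifiedAt (𝓞 K) P := by
  haveI : IsGalois K M := inferInstance
  let p : Ideal (𝓞 K) := P.under (𝓞 K)
  haveI : P.LiesOver p := ⟨rfl⟩
  letI : MulSemiringAction Gal(M/K) (𝓞 M) := IsIntegralClosure.MulSemiringAction (𝓞 K) K M (𝓞 M)
  haveI := IsGaloisGroup.of_isFractionRing Gal(M/K) (𝓞 K) (𝓞 M) K M
  have hcard := Ideal.card_inertia_eq_ramificationIdxIn (G := Gal(M/K)) p P
  rw [Ideal.ramificationIdxIn_eq_ramificationIdx p P Gal(M/K)] at hcard
  rw [← Ideal.ramificationIdx_eq_one_iff, ← hcard, Subgroup.card_eq_one]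
  rw [eq_bot_iff]
  intro g hg
  rw [Subgroup.mem_bot]
  apply h g
  intro x
  refine ⟨g • x - x, hg x, ?_⟩
  have h1 : algebraMap (𝓞 M) M (g • x) = g (algebraMap (𝓞 M) M x) :=
    algebraMap_galRestrict_apply (𝓞 K) g x
  show algebraMap (𝓞 M) M (g • x - x) = _
  rw [map_sub, h1]

/-- **S3-NF**: the pure number field half of S3-5. -/
theorem ecbig_s3n48_NF_of (hD : StmtS3DiscK) (hMk : StmtS3Mink) : StmtS3NF := by
  intro M _ _ _ h6 s hs hunr
  let K : IntermediateField ℚ M := IntermediateField.adjoin ℚ {s}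
  have hsK : s ∈ K := IntermediateField.mem_adjoin_simple_self ℚ s
  have hsK2 : (⟨s, hsK⟩ : K) ^ 2 = 5 := Subtype.ext (by
    show s ^ 2 = ((5 : K) : M)
    rw [hs]
    rfl)
  have h2 : Module.finrank ℚ K = 2 := ecbig_s3n48_finrank M s hs
  have h3 : Module.finrank K M = 3 := by
    have h := Module.finrank_mul_finrank ℚ K M
    rw [h2, h6] at h
    omega
  have hdK : (NumberField.discr K).natAbs ∣ 5 := hD K h2 ⟨s, hsK⟩ hsK2
  have hdM : 125 < (NumberField.discr M).natAbs := hMk M h6
  -- the relative different is trivial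
  have hdiff : differentIdeal (𝓞 K) (𝓞 M) = ⊤ := by
    by_contra hne
    obtain ⟨P, hPmax, hle⟩ := Ideal.exists_le_maximal _ hne
    haveI := hPmax.isPrime
    have hPbot : P ≠ ⊥ := by
      intro hP
      rw [hP, le_bot_iff] at hle
      exact differentIdeal_ne_bot hle
    have hunrP : Algebra.IsUnramifiedAt (𝓞 K) P := by
      refine ecbig_s3n48_unr M K P ?_
      intro g hg
      have h1 := hunr P hPmax.isPrime hPbot (g.restrictScalars ℚ) (by
        show g s = s
        exact g.commutes ⟨s, hsK⟩) hg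
      ext x
      have h4 := congrArg (fun f : M ≃ₐ[ℚ] M => f x) h1
      exact h4
    exact (not_dvd_differentIdeal_iff.2 hunrP) (Ideal.dvd_iff_le.2 hle)
  have htower := NumberField.natAbs_discr_eq_absNorm_differentIdeal_mul_natAbs_discr_pow
    K (𝓞 K) M (𝓞 M)
  rw [hdiff, Ideal.absNorm_top, one_mul, h3] at htower
  have h5 : (NumberField.discr K).natAbs ≤ 5 := Nat.le_of_dvd (by norm_num) hdK
  have h125 : (NumberField.discr K).natAbs ^ 3 ≤ 125 := by
    calc (NumberField.discr K).natAbs ^ 3 ≤ 5 ^ 3 := Nat.pow_le_pow_left h5 3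
      _ = 125 := by norm_num
  omega

end Fermat.Agent.EC
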