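import Mathlib
import Fermat.Agent.EC.Big.S3Five
import Fermat.Agent.EC.Big.S3Mink
import Fermat.Agent.EC.Big.S3Disc
import Fermat.Agent.EC.Big.S3NFh48

/-!
# E-BIG, piece S3-5: `stmtS3 : StmtS3` (unconditional)

There is no Galois extension of `ℚ` with group `S₃` unramified outside `5`.
-/

set_option autoImplicit false

namespace Fermat.Agent.EC

/-- the pure number field half -/
theorem stmtS3NF : StmtS3NF := ecbig_s3n48_NF_of stmtS3DiscK stmtS3Mink

/-- **S3-5**. -/
theorem stmtS3 : StmtS3 := stmtS3_of stmtS3NF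

end Fermat.Agent.EC
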