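import Mathlib
import Fermat.Agent.EC.Big.Final
import Fermat.Agent.EC.Big.Cubic5
import Fermat.Agent.EC.Big.Grp5
import Fermat.Agent.EC.Big.S3Final

/-!
# E-BIG, `p = 5`, unconditional

`W : WeierstrassCurve ℤ` semistable, `Δ ≠ 0`, `E[5]` irreducible,
`ρbar := (tateRepInt W hΔ 5).residual`.

* `ecbig_tateResInt_comm_five` : every subgroup `H` of index two of `G_ℚ` contains `σ, τ` with
  `tr ρbar(σ τ σ⁻¹ τ⁻¹) ≠ 2`;
* `ecbig_tateResInt_hTW_five` : hence `ρbar|_H` is absolutely irreducible (shape of `hTW` of S56);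
* `ecbig_tateResInt_hTW_three_five` : the two primes of the 3-5 switch in one statement.

Inputs: CUBIC5 + TAME-AB + S3-5 (helper48), GRP5 (helper57), the rest of `EC/Big` (helper77).
-/

set_option autoImplicit false
set_option linter.style.haveILetI false

namespace Fermat.Agent.EC

/-- `G_ℚ` -/
local notation "GQ" => (AlgebraicClosure ℚ ≃ₐ[ℚ] AlgebraicClosure ℚ)

section Five

variable (W : WeierstrassCurve ℤ) (hΔ : W.Δ ≠ 0)

/-- **E-BIG, `p = 5`, commutator form**, unconditional. -/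
theorem ecbig_tateResInt_comm_five [Fact (Nat.Prime 5)] (hss : W.IsSemistableModel)
    (hirr : W.ModRepIsIrreducible 5) (H : Subgroup GQ) (hH : H.index = 2) :
    ∃ σ ∈ H, ∃ τ ∈ H, LinearMap.trace _ (tateRepInt W hΔ 5).residual.V
      ((tateRepInt W hΔ 5).residual.ρ (σ * τ * σ⁻¹ * τ⁻¹)) ≠ 2 :=
  ecbig_tateResInt_comm_five_of W hΔ stmtCubic5 stmtS3 stmtGrp5 hss hirr H hH

/-- **E-BIG, `p = 5`**: `hTW` of S56 for the residual representation of the Tate module of a
semistable curve with `E[5]` irreducible. -/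
theorem ecbig_tateResInt_hTW_five [Fact (Nat.Prime 5)] (hss : W.IsSemistableModel)
    (hirr : W.ModRepIsIrreducible 5)
    (K : Type) [Field K] [Algebra (IsLocalRing.ResidueField ℤ_[5]) K]
    (H : Subgroup GQ) (hH : H.index = 2)
    (V : Submodule K ((tateRepInt W hΔ 5).residual.baseChange K).V)
    (hV : ∀ σ ∈ H, ∀ x ∈ V, ((tateRepInt W hΔ 5).residual.baseChange K).ρ σ x ∈ V) :
    V = ⊥ ∨ V = ⊤ := by
  obtain ⟨σ, hσ, τ, hτ, htr⟩ := ecbig_tateResInt_comm_five W hΔ hss hirr H hH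
  exact ecbig_stable_eq_bot_or_top _ K H hσ hτ htr V hV

/-- **E-BIG for the primes of the 3-5 switch**: for `p ∈ {3, 5}`, a semistable curve with
`E[p]` irreducible has `ρbar|_H` absolutely irreducible for every subgroup `H` of index two. -/
theorem ecbig_tateResInt_hTW_three_five (p : ℕ) [Fact p.Prime] (hp : p = 3 ∨ p = 5)
    (hss : W.IsSemistableModel) (hirr : W.ModRepIsIrreducible p)
    (K : Type) [Field K] [Algebra (IsLocalRing.ResidueField ℤ_[p]) K]
    (H : Subgroup GQ) (hH : H.index = 2)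
    (V : Submodule K ((tateRepInt W hΔ p).residual.baseChange K).V)
    (hV : ∀ σ ∈ H, ∀ x ∈ V, ((tateRepInt W hΔ p).residual.baseChange K).ρ σ x ∈ V) :
    V = ⊥ ∨ V = ⊤ := by
  rcases hp with rfl | rfl
  · exact ecbig_tateResInt_hTW_three W hΔ hss hirr K H hH V hV
  · exact ecbig_tateResInt_hTW_five W hΔ hss hirr K H hH V hV

end Five

end Fermat.Agent.EC
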